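import Fermat.Agent.TWPr.Cond
import Fermat.Agent.FlatLoc.Inst
import Fermat.Agent.GalRep.Unram

/-!
# The residual conditions for general residual representations
-/

set_option autoImplicit false
set_option maxHeartbeats 400000
set_option linter.unusedSectionVars false

noncomputable section

namespace Fermat.Agent.TW56

open Matrix Fermat.Agent.DefRing Fermat.Agent.GalRep Fermat.Agent.S43Glue Fermat.Agent.TWPr

local notation "Qbar" => AlgebraicClosure ℚ

section Mat

variable {k : Type} [Field k]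

theorem sq_zero {n : Matrix (Fin 2) (Fin 2) k} (h : n * n = 0) : n.trace = 0 ∧ n.det = 0 := by
  have hd : n.det = 0 := by
    have h1 := congrArg Matrix.det h
    rw [Matrix.det_mul, Matrix.det_zero] at h1
    exact mul_self_eq_zero.mp h1
  refine ⟨?_, hd⟩
  have h00 := congrFun (congrFun h 0) 0
  have h11 := congrFun (congrFun h 1) 1
  rw [Matrix.mul_apply, Fin.sum_univ_two, Matrix.zero_apply] at h00 h11
  rw [Matrix.det_fin_two] at hd
  have h2 : n.trace ^ 2 = 0 := by
    rw [Matrix.trace_fin_two]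
    linear_combination h00 + h11 + 2 * hd
  exact pow_eq_zero_iff two_ne_zero |>.mp h2

theorem sq_of_tr_det {n : Matrix (Fin 2) (Fin 2) k} (ht : n.trace = 0) (hd : n.det = 0) :
    n * n = 0 := by
  rw [Matrix.trace_fin_two] at ht
  rw [Matrix.det_fin_two] at hd
  ext i j
  rw [Matrix.mul_apply, Fin.sum_univ_two, Matrix.zero_apply]
  fin_cases i <;> fin_cases j <;> simp only [Fin.zero_eta, Fin.mk_one, Fin.isValue]
  · linear_combination n 0 0 * ht - hd
  · linear_combination n 0 1 * ht
  · linear_combination n 1 0 * ht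
  · linear_combination n 1 1 * ht - hd

/-- Cayley–Hamilton -/
theorem cayley (M : Matrix (Fin 2) (Fin 2) k) :
    M * M = M.trace • M - M.det • (1 : Matrix (Fin 2) (Fin 2) k) := by
  rw [Matrix.trace_fin_two, Matrix.det_fin_two]
  ext i j
  rw [Matrix.mul_apply, Fin.sum_univ_two, Matrix.sub_apply, Matrix.smul_apply, Matrix.smul_apply,
    smul_eq_mul, smul_eq_mul]
  fin_cases i <;> fin_cases j <;> simp <;> ring

/-- matrices commuting with everything -/
theorem scalar_of_comm {S : Set (Matrix (Fin 2) (Fin 2) k)} (hS : Submodule.span k S = ⊤)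
    {X : Matrix (Fin 2) (Fin 2) k} (hX : ∀ M ∈ S, M * X = X * M) :
    ∃ c : k, X = c • (1 : Matrix (Fin 2) (Fin 2) k) := by
  have h1 : ∀ M : Matrix (Fin 2) (Fin 2) k, M * X = X * M := by
    intro M
    have hM : M ∈ Submodule.span k S := by rw [hS]; trivial
    induction hM using Submodule.span_induction with
    | mem x hx => exact hX x hx
    | zero => rw [zero_mul, mul_zero]
    | add x y _ _ hx hy => rw [add_mul, mul_add, hx, hy]
    | smul a x _ hx => rw [Matrix.smul_mul, Matrix.mul_smul, hx]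
  have h2 := h1 !![0, 1; 0, 0]
  have h3 := h1 !![0, 0; 1, 0]
  have e1 := congrFun (congrFun h2 0) 0
  have e2 := congrFun (congrFun h2 0) 1
  have e3 := congrFun (congrFun h3 0) 0
  simp [Matrix.mul_apply, Fin.sum_univ_two] at e1 e2 e3
  refine ⟨X 0 0, ?_⟩
  ext i j
  fin_cases i <;> fin_cases j <;> simp [e1, e2, ← e3]

/-- trace identity -/
theorem trace_nn {n g h : Matrix (Fin 2) (Fin 2) k} (hn : n * n = 0) (hgh : g * h = 1) :
    g.det * (n * g * n * h).trace = - (n * g).trace ^ 2 := by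
  obtain ⟨ht, hd⟩ := sq_zero hn
  have hadj : g.det • h = g.adjugate := by
    calc g.det • h = (g.adjugate * g) * h := by
          rw [Matrix.adjugate_mul, Matrix.smul_mul, one_mul]
      _ = g.adjugate := by rw [mul_assoc, hgh, mul_one]
  have h1 : g.det * (n * g * n * h).trace = (n * g * n * g.adjugate).trace := by
    rw [← hadj, Matrix.mul_smul, Matrix.trace_smul, smul_eq_mul]
  rw [h1, Matrix.adjugate_fin_two]
  rw [Matrix.trace_fin_two] at ht
  rw [Matrix.det_fin_two] at hd
  simp only [Matrix.trace_fin_two, Matrix.mul_apply, Fin.sum_univ_two, Matrix.of_apply,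
    Matrix.cons_val', Matrix.cons_val_zero, Matrix.cons_val_one, Matrix.cons_val_fin_one]
  have ht' : n 1 1 = - n 0 0 := by linear_combination ht
  rw [ht'] at hd ⊢
  have hd' : n 0 1 * n 1 0 = - (n 0 0 * n 0 0) := by linear_combination -hd
  linear_combination (g 0 0 * g 0 0 + g 1 1 * g 1 1 + 2 * g 0 1 * g 1 0) * hd'

end Mat

section Idx

variable {G : Type*} [Group G]

theorem index_of {K : Subgroup G} (h : ∀ g₀, g₀ ∉ K → ∀ b, b * g₀ ∈ K ↔ b ∉ K) :
    K.index = 1 ∨ K.index = 2 := by
  by_cases hK : K = ⊤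
  · left; rw [hK, Subgroup.index_top]
  · right
    obtain ⟨g₀, hg₀⟩ : ∃ g₀, g₀ ∉ K := by
      by_contra hc
      push Not at hc
      exact hK (eq_top_iff.mpr fun g _ => hc g)
    rw [Subgroup.index_eq_two_iff]
    refine ⟨g₀, fun b => ?_⟩
    have := h g₀ hg₀ b
    by_cases hb : b ∈ K
    · exact Or.inr ⟨hb, fun h1 => (this.mp h1) hb⟩
    · exact Or.inl ⟨this.mpr hb, hb⟩

end Idx

variable {p : ℕ} [hpf : Fact p.Prime] {k : Type} [Field k] [Algebra (ZMod p) k]
  {ρ : GQ →* Matrix (Fin 2) (Fin 2) k}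

theorem trace_zero_span {S : Set (Matrix (Fin 2) (Fin 2) k)} (hS : Submodule.span k S = ⊤)
    {n : Matrix (Fin 2) (Fin 2) k} (h : ∀ M ∈ S, (n * M).trace = 0) : n = 0 := by
  have h1 : ∀ M : Matrix (Fin 2) (Fin 2) k, (n * M).trace = 0 := by
    intro M
    have hM : M ∈ Submodule.span k S := by rw [hS]; trivial
    induction hM using Submodule.span_induction with
    | mem x hx => exact h x hx
    | zero => rw [mul_zero, Matrix.trace_zero]
    | add x y _ _ hx hy => rw [mul_add, Matrix.trace_add, hx, hy, add_zero]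
    | smul a x _ hx => rw [Matrix.mul_smul, Matrix.trace_smul, hx, smul_zero]
  ext i j
  have := h1 (Matrix.single j i 1)
  rw [Matrix.trace_mul_single] at this
  simpa using this

/-- the adjoint representation has no stable lines -/
theorem irr_of (h2 : (2 : k) ≠ 0)
    (hS : ∀ G : Subgroup GQ, G.index = 1 ∨ G.index = 2 →
      Submodule.span k (ρ '' (G : Set GQ)) = ⊤)
    (X : Matrix (Fin 2) (Fin 2) k) (hX : X.trace = 0) (hX0 : X ≠ 0) :
    ∃ g, ∀ a : k, ρ g * X * ρ g⁻¹ ≠ a • X := by
  by_contra hcon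
  push Not at hcon
  choose a ha using hcon
  have htop : Submodule.span k (Set.range ρ) = ⊤ := by
    have := hS ⊤ (Or.inl Subgroup.index_top)
    rwa [Subgroup.coe_top, Set.image_univ] at this
  have hmul : ∀ g, ρ g * X = a g • (X * ρ g) := by
    intro g
    calc ρ g * X = ρ g * X * ρ g⁻¹ * ρ g := by rw [mul_assoc _ (ρ g⁻¹), rinv', mul_one]
      _ = _ := by rw [ha, Matrix.smul_mul]
  have ha0 : ∀ g, a g ≠ 0 := by
    intro g h0
    have h1 := hmul g
    rw [h0, zero_smul] at h1
    apply hX0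
    calc X = ρ g⁻¹ * (ρ g * X) := by rw [← mul_assoc, rinv', one_mul]
      _ = 0 := by rw [h1, mul_zero]
  by_cases hd : X.det = 0
  · have hXX := sq_of_tr_det hX hd
    apply hX0
    refine trace_zero_span htop ?_
    rintro _ ⟨g, rfl⟩
    refine (sq_zero ?_).1
    have h1 : X * ρ g * X = 0 := by
      rw [mul_assoc, hmul, Matrix.mul_smul, ← mul_assoc, hXX, zero_mul, smul_zero]
    rw [← mul_assoc, h1, zero_mul]
  · have hsq : ∀ g, a g = 1 ∨ a g = -1 := by
      intro g
      have h1 := congrArg Matrix.det (ha g)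
      rw [Matrix.det_smul, Fintype.card_fin, Matrix.det_mul, Matrix.det_mul] at h1
      have h3 := congrArg Matrix.det (rinv (ρ := ρ) g)
      rw [Matrix.det_mul, Matrix.det_one] at h3
      have h4 : (a g ^ 2 - 1) * X.det = 0 := by linear_combination -h1 + X.det * h3
      have h5 := (mul_eq_zero.mp h4).resolve_right hd
      have h6 : (a g - 1) * (a g + 1) = 0 := by linear_combination h5
      rcases mul_eq_zero.mp h6 with h | h
      · left; linear_combination h
      · right; linear_combination h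
    have hmulA : ∀ g h, a (g * h) = a g * a h := by
      intro g h
      have h1 : a (g * h) • X = (a g * a h) • X := by
        rw [← ha, map_mul, _root_.mul_inv_rev, map_mul]
        calc ρ g * ρ h * X * (ρ h⁻¹ * ρ g⁻¹) = ρ g * (ρ h * X * ρ h⁻¹) * ρ g⁻¹ := by
              simp only [mul_assoc]
          _ = _ := by rw [ha, Matrix.mul_smul, Matrix.smul_mul, ha, smul_smul, mul_comm]
      have h2 : (a (g * h) - a g * a h) • X = 0 := by rw [sub_smul, h1, sub_self]
      exact sub_eq_zero.mp ((smul_eq_zero.mp h2).resolve_right hX0)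
    have ha1 : a 1 = 1 := by
      have := hmulA 1 1
      rw [mul_one] at this
      exact (mul_left_cancel₀ (ha0 1) (by rw [mul_one]; exact this)).symm
    let K : Subgroup GQ :=
      { carrier := {g | a g = 1}
        mul_mem' := fun {g h} hg hh => by
          change a (g * h) = 1
          rw [hmulA, show a g = 1 from hg, show a h = 1 from hh, one_mul]
        one_mem' := ha1
        inv_mem' := fun {g} hg => by
          change a g⁻¹ = 1
          have := hmulA g g⁻¹
          rw [mul_inv_cancel, ha1, show a g = 1 from hg, one_mul] at this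
          exact this.symm }
    have hneg : (-1 : k) ≠ 1 := by
      intro h
      apply h2
      linear_combination -h
    have hidx := index_of (K := K) (fun g₀ hg₀ b => by
      have h1 : a g₀ = -1 := (hsq g₀).resolve_left hg₀
      change a (b * g₀) = 1 ↔ ¬ a b = 1
      rw [hmulA, h1]
      rcases hsq b with h | h
      · rw [h]; simp [hneg]
      · rw [h]; simp [hneg])
    obtain ⟨c, hc⟩ := scalar_of_comm (hS K hidx) (X := X) (by
      rintro _ ⟨g, hg, rfl⟩
      have : a g = 1 := hg
      rw [hmul, this, one_smul])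
    rw [hc, Matrix.trace_smul, Matrix.trace_one, Fintype.card_fin, smul_eq_mul] at hX
    have hc0 : c = 0 := by
      rcases mul_eq_zero.mp hX with h | h
      · exact h
      · exact absurd (by exact_mod_cast h) h2
    exact hX0 (by rw [hc, hc0, zero_smul])

/-- existence of regular elements -/
theorem reg_of (h2 : (2 : k) ≠ 0) (hdet : ∀ g, (ρ g).det = chk p k g)
    (hS : ∀ G : Subgroup GQ, G.index = 1 ∨ G.index = 2 →
      Submodule.span k (ρ '' (G : Set GQ)) = ⊤)
    (hsplit : ∀ σ, ∃ α β : k, (ρ σ).trace = α + β ∧ (ρ σ).det = α * β) :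
    ∃ σ, cycP p σ = 1 ∧ ∃ α β : k, α ≠ β ∧ α * β = 1 ∧ (ρ σ).trace = α + β := by
  by_contra hcon
  push Not at hcon
  have htop : Submodule.span k (Set.range ρ) = ⊤ := by
    have := hS ⊤ (Or.inl Subgroup.index_top)
    rwa [Subgroup.coe_top, Set.image_univ] at this
  have hdet1 : ∀ σ, cycP p σ = 1 → (ρ σ).det = 1 := fun σ hσ => by
    rw [hdet, chk_of_cycP hσ]
  have htr : ∀ σ, cycP p σ = 1 → ∃ ε : k, ε * ε = 1 ∧ (ρ σ).trace = 2 * ε := by
    intro σ hσ
    obtain ⟨α, β, h3, h4⟩ := hsplit σ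
    rw [hdet1 σ hσ] at h4
    have h5 : α = β := by
      by_contra hne
      exact hcon σ hσ α β hne h4.symm h3
    subst h5
    exact ⟨α, h4.symm, by rw [h3]; ring⟩
  -- step A
  have hA : ∀ σ, cycP p σ = 1 → ∃ ε : k, ε * ε = 1 ∧ ρ σ = ε • (1 : Matrix (Fin 2) (Fin 2) k) := by
    intro σ hσ
    obtain ⟨ε, hε, h3⟩ := htr σ hσ
    refine ⟨ε, hε, ?_⟩
    have hCH := cayley (ρ σ)
    rw [h3, hdet1 σ hσ, one_smul] at hCH
    set n := ρ (σ * σ) - 1 with hn
    have hn1 : n = (2 * ε) • (ρ σ - ε • (1 : Matrix (Fin 2) (Fin 2) k)) := by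
      rw [hn, map_mul, hCH, smul_sub, smul_smul, mul_assoc, hε, mul_one, two_smul]
      abel
    have hmm : (ρ σ - ε • (1 : Matrix (Fin 2) (Fin 2) k)) * (ρ σ - ε • (1 : Matrix (Fin 2) (Fin 2) k))
        = 0 := by
      have h4 : (ρ σ - ε • (1 : Matrix (Fin 2) (Fin 2) k)) * (ρ σ - ε • (1 : Matrix (Fin 2) (Fin 2) k))
          = ρ σ * ρ σ - (2 * ε) • ρ σ + (ε * ε) • (1 : Matrix (Fin 2) (Fin 2) k) := by
        rw [sub_mul, mul_sub, mul_sub, Matrix.mul_smul, Matrix.smul_mul, Matrix.smul_mul,
          Matrix.mul_smul, one_mul, mul_one, mul_one]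
        module
      rw [h4, hCH, hε, one_smul]
      abel
    have hnn : n * n = 0 := by
      rw [hn1, Matrix.smul_mul, Matrix.mul_smul, hmm, smul_zero, smul_zero]
    have hτ : cycP p (σ * σ) = 1 := by rw [map_mul, hσ, one_mul]
    have hρτ : ρ (σ * σ) = 1 + n := by rw [hn]; abel
    have ht0 : ∀ g, (n * (ρ g * n * ρ g⁻¹)).trace = 0 := by
      intro g
      set n' := ρ g * n * ρ g⁻¹ with hn'
      have hconj : ρ (g * (σ * σ) * g⁻¹) = 1 + n' := by
        rw [map_mul, map_mul ρ g, hρτ, mul_add, mul_one, add_mul, rinv]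
      have hcc : cycP p (g * (σ * σ) * g⁻¹) = 1 := by
        rw [map_mul, map_mul _ g, hτ, mul_one, ← map_mul, mul_inv_cancel, map_one]
      have hn'tr : n'.trace = 0 := by rw [hn', TWPr.trace_conj, (sq_zero hnn).1]
      have e1 : (ρ ((σ * σ) * (g * (σ * σ) * g⁻¹))).trace = 2 + (n * n').trace := by
        rw [map_mul ρ (σ * σ), hρτ, hconj, add_mul, one_mul, mul_add, mul_one]
        simp only [Matrix.trace_add, Matrix.trace_one, Fintype.card_fin, hn'tr, (sq_zero hnn).1]
        push_cast; ring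
      have e2 : (ρ ((σ * σ) * ((σ * σ) * (g * (σ * σ) * g⁻¹)))).trace = 2 + 2 * (n * n').trace := by
        have : (1 + n) * ((1 + n) * (1 + n')) = 1 + n' + 2 • n + 2 • (n * n') + n * n + n * n * n' := by
          noncomm_ring
        rw [map_mul ρ (σ * σ), map_mul ρ (σ * σ), hρτ, hconj, this, hnn, zero_mul]
        simp only [Matrix.trace_add, Matrix.trace_one, Fintype.card_fin, hn'tr, (sq_zero hnn).1,
          Matrix.trace_smul, Matrix.trace_zero]
        simp
      obtain ⟨ε₁, hε₁, h4⟩ := htr ((σ * σ) * (g * (σ * σ) * g⁻¹)) (by rw [map_mul _ (σ * σ), hτ, hcc, one_mul])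
      obtain ⟨ε₂, hε₂, h5⟩ := htr ((σ * σ) * ((σ * σ) * (g * (σ * σ) * g⁻¹)))
        (by rw [map_mul _ (σ * σ), map_mul _ (σ * σ), hτ, hcc, one_mul, one_mul])
      rw [e1] at h4
      rw [e2] at h5
      set t := (n * n').trace
      have h6 : t * (t + 4) = 0 := by
        have : (2 + t) ^ 2 = 4 := by rw [h4]; linear_combination 4 * hε₁
        linear_combination this
      have h7 : t * (t + 2) = 0 := by
        have : (2 + 2 * t) ^ 2 = 4 := by rw [h5]; linear_combination 4 * hε₂
        have h8 : (2 * 2) * (t * (t + 2)) = 0 := by linear_combination this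
        exact (mul_eq_zero.mp h8).resolve_left (mul_ne_zero h2 h2)
      have h9 : 2 * t = 0 := by linear_combination h6 - h7
      exact (mul_eq_zero.mp h9).resolve_left h2
    have hn0 : n = 0 := by
      refine trace_zero_span htop ?_
      rintro _ ⟨g, rfl⟩
      have h6 := trace_nn hnn (rinv (ρ := ρ) g)
      have h7 : n * ρ g * n * ρ g⁻¹ = n * (ρ g * n * ρ g⁻¹) := by simp only [mul_assoc]
      rw [h7, ht0, mul_zero] at h6
      have h8 : (n * ρ g).trace ^ 2 = 0 := by linear_combination h6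
      exact pow_eq_zero_iff two_ne_zero |>.mp h8
    rw [hn0] at hn1
    have hε0 : ε ≠ 0 := fun h => by rw [h, mul_zero] at hε; exact zero_ne_one hε
    exact sub_eq_zero.mp ((smul_eq_zero.mp hn1.symm).resolve_left (mul_ne_zero h2 hε0))
  -- step B
  have hcomm : ∀ g h, ρ g * ρ h = ρ h * ρ g ∨ ρ g * ρ h = - (ρ h * ρ g) := by
    intro g h
    have h1 : cycP p (g * h * g⁻¹ * h⁻¹) = 1 := map_comm _ g h
    obtain ⟨ε, hε, h3⟩ := hA _ h1
    have h4 : ρ g * ρ h = ε • (ρ h * ρ g) := by
      calc ρ g * ρ h = ρ (g * h * g⁻¹ * h⁻¹ * (h * g)) := by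
            rw [← map_mul]; congr 1; group
        _ = _ := by rw [map_mul, h3, map_mul, Matrix.smul_mul, one_mul]
    have h5 : (ε - 1) * (ε + 1) = 0 := by linear_combination hε
    rcases mul_eq_zero.mp h5 with h6 | h6
    · left; rw [h4, sub_eq_zero.mp h6, one_smul]
    · right; rw [h4, eq_neg_of_add_eq_zero_left h6, neg_one_smul]
  have hne : ∀ g h, ρ g * ρ h ≠ - (ρ g * ρ h) := by
    intro g h h1
    have h3 : (2 : k) • (ρ g * ρ h) = 0 := by
      rw [two_smul]; nth_rw 2 [h1]; rw [add_neg_cancel]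
    have h4 := (smul_eq_zero.mp h3).resolve_left h2
    have h5 : (1 : Matrix (Fin 2) (Fin 2) k) = 0 := by
      calc (1 : Matrix (Fin 2) (Fin 2) k) = ρ h⁻¹ * (ρ g⁻¹ * (ρ g * ρ h)) := by
            rw [← mul_assoc (ρ g⁻¹), rinv', one_mul, rinv']
        _ = 0 := by rw [h4, mul_zero, mul_zero]
    exact one_ne_zero h5
  have hscal : ∀ h, ∃ c : k, ρ h = c • (1 : Matrix (Fin 2) (Fin 2) k) := by
    intro h
    let K : Subgroup GQ :=
      { carrier := {g | ρ g * ρ h = ρ h * ρ g}
        mul_mem' := fun {g g'} hg hg' => by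
          change ρ (g * g') * ρ h = ρ h * ρ (g * g')
          rw [map_mul, mul_assoc, show ρ g' * ρ h = ρ h * ρ g' from hg', ← mul_assoc,
            show ρ g * ρ h = ρ h * ρ g from hg, mul_assoc]
        one_mem' := by change ρ 1 * ρ h = ρ h * ρ 1; rw [map_one, one_mul, mul_one]
        inv_mem' := fun {g} hg => by
          change ρ g⁻¹ * ρ h = ρ h * ρ g⁻¹
          calc ρ g⁻¹ * ρ h = ρ g⁻¹ * ρ h * (ρ g * ρ g⁻¹) := by rw [rinv, mul_one]
            _ = ρ g⁻¹ * (ρ h * ρ g) * ρ g⁻¹ := by simp only [mul_assoc]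
            _ = ρ g⁻¹ * (ρ g * ρ h) * ρ g⁻¹ := by
              rw [show ρ g * ρ h = ρ h * ρ g from hg]
            _ = _ := by rw [← mul_assoc, rinv', one_mul] }
    have hidx := index_of (K := K) (fun g₀ hg₀ b => by
      have h1 : ρ g₀ * ρ h = - (ρ h * ρ g₀) := (hcomm g₀ h).resolve_left hg₀
      change ρ (b * g₀) * ρ h = ρ h * ρ (b * g₀) ↔ ¬ ρ b * ρ h = ρ h * ρ b
      rw [map_mul, mul_assoc, h1, mul_neg, ← mul_assoc]
      constructor
      · intro h3 h4
        rw [h4] at h3
        rw [← mul_assoc (ρ h), ← map_mul ρ h b] at h3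
        exact hne (h * b) g₀ h3.symm
      · intro h3
        have h4 := (hcomm b h).resolve_left h3
        rw [h4, neg_mul, neg_neg, mul_assoc])
    exact scalar_of_comm (hS K hidx) (X := ρ h) (by
      rintro _ ⟨g, hg, rfl⟩
      exact hg)
  have h10 : ∀ M ∈ Submodule.span k (Set.range ρ), M 0 1 = 0 := by
    intro M hM
    induction hM using Submodule.span_induction with
    | mem x hx =>
      obtain ⟨g, rfl⟩ := hx
      obtain ⟨c, hc⟩ := hscal g
      rw [hc]; simp
    | zero => rfl
    | add x y _ _ hx hy => rw [Matrix.add_apply, hx, hy, add_zero]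
    | smul a x _ hx => rw [Matrix.smul_apply, hx, smul_zero]
  have h11 := h10 !![0, 1; 0, 0] (by rw [htop]; trivial)
  simp at h11

end Fermat.Agent.TW56
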