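import Fermat.Agent.TW56.Main
import Fermat.Agent.TW56.Res
import Fermat.Agent.TWPr.TWSel

/-!
# The statement S56 from the vanishing of `H¹(im ρ, ad⁰(1))` and the bound for cyclotomic cocycles
-/

set_option autoImplicit false
set_option maxHeartbeats 400000
set_option linter.unusedSectionVars false

noncomputable section

namespace Fermat.Agent.TW56

open IsLocalRing Matrix Fermat.Agent.DefRing Fermat.Agent.GalRep Fermat.Agent.TWGal
  Fermat.Agent.TWPatch GaloisRep Fermat.Agent.FlatLoc Fermat.Agent.TWPr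

local notation "Qbar" => AlgebraicClosure ℚ

/-- the vanishing of `H¹(im ρ, ad⁰(1))` -/
def H1Van (p : ℕ) [Fact p.Prime] (k : Type) [Field k] [Algebra (ZMod p) k] : Prop :=
  ∀ ρ : GQ →* Matrix (Fin 2) (Fin 2) k, FinLev ρ 1 → (∀ g, (ρ g).det = chk p k g) →
    Submodule.span k (Set.range ρ) = ⊤ →
    ∀ c, TwC p ρ c → (∀ g, ρ g = 1 → c g = 0) → TwB p ρ c

/-- the bound for cyclotomic cocycles -/
def Z1Bound (p : ℕ) [Fact p.Prime] (k : Type) [Field k] [Algebra (ZMod p) k] : Prop :=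
  Module.rank k (Z1c p k (padicPlace p)) ≤ (3 : ℕ)

variable {p : ℕ} [hp : Fact p.Prime] {k : Type} [Field k] [Finite k] [Algebra (ZMod p) k]
  {ρb : GQ →* Matrix (Fin 2) (Fin 2) k}

theorem two_ne_of (hp2 : p ≠ 2) : (2 : k) ≠ 0 := by
  intro h0
  have h2p : (2 : ZMod p) ≠ 0 := by
    intro h
    have : ((2 : ℕ) : ZMod p) = 0 := by exact_mod_cast h
    rw [ZMod.natCast_eq_zero_iff] at this
    exact hp2 ((Nat.prime_dvd_prime_iff_eq hp.out Nat.prime_two).mp this)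
  exact h2p ((map_eq_zero (algebraMap (ZMod p) k)).mp (by rw [map_ofNat, h0]))

theorem twCond_of (hp2 : p ≠ 2) (hH1 : H1Van p k) (hlev : FinLev ρb 1)
    (hdet : ∀ g, (ρb g).det = chk p k g)
    (hS : ∀ G : Subgroup GQ, G.index = 1 ∨ G.index = 2 →
      Submodule.span k (ρb '' (G : Set GQ)) = ⊤)
    (hsplit : ∀ σ, ∃ α β : k, (ρb σ).trace = α + β ∧ (ρb σ).det = α * β) : TWCond p k ρb where
  p2 := hp2
  lev := hlev
  det := hdet
  irr := irr_of (two_ne_of hp2) hS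
  reg := reg_of (two_ne_of hp2) hdet hS hsplit
  h1 := hH1 ρb hlev hdet (by
    have := hS ⊤ (Or.inl Subgroup.index_top)
    rwa [Subgroup.coe_top, Set.image_univ] at this)

/-- the Selmer bound -/
theorem selC_of_cond (hp2 : p ≠ 2) (hcond : TWCond p k ρb) (Smin S : Finset ℕ)
    (hpS : p ∈ Smin)
    (hunr : ∀ q : ℕ, q.Prime → q ∉ Smin → ∀ A : ValuationSubring Qbar, A.LiesOverPrime q →
      ∀ σ ∈ A.inertiaSubgroupIn ℚ, ρb σ = 1)
    (hunip : ∀ q ∈ Smin, q.Prime → q ≠ p → ∀ A : ValuationSubring Qbar, A.LiesOverPrime q →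
      ∀ σ ∈ A.inertiaSubgroupIn ℚ, (ρb σ).trace = 2 ∧ (ρb σ).det = 1)
    (hram : ∀ q ∈ Smin, q.Prime → q ≠ p → ∀ A : ValuationSubring Qbar, A.LiesOverPrime q →
      ∃ σ ∈ A.inertiaSubgroupIn ℚ, ρb σ ≠ 1)
    (Lp : Submodule k (DD (padicPlace p) → Matrix (Fin 2) (Fin 2) k)) (hLf : Module.Finite k Lp)
    (hLr : Module.finrank k Lp ≤ 4)
    (hLc : ∀ X : Matrix (Fin 2) (Fin 2) k, X.trace = 0 →
      (fun σ : DD (padicPlace p) => X - ρb (σ : GQ) * X * ρb (σ : GQ)⁻¹) ∈ Lp) :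
    SelC p Smin S Lp ρb := by
  classical
  haveI : CharP k p := charP_of_injective_algebraMap (algebraMap (ZMod p) k).injective p
  have hm : ∀ q : Nat.Primes, q ∈ Smin.subtype Nat.Prime ↔ (q : ℕ) ∈ Smin := fun q =>
    Finset.mem_subtype
  have H : SelHyp p k ρb (Smin.subtype Nat.Prime) ∅ Lp :=
    { cond := hcond
      hpS := (hm _).mpr hpS
      disj := fun q hq => absurd hq (Finset.notMem_empty q)
      unr := fun q hq A hA σ hσ => hunr q q.2 (fun h => hq ((hm q).mpr h)) A hA σ hσ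
      unip := by
        intro q hq hqp σ hσ
        obtain ⟨h1, h2⟩ := hunip q ((hm q).mp hq) q.2 hqp _ (CFT.padicPlace_liesOver (q : ℕ)) σ hσ
        have h3 := cayley (ρb σ)
        rw [h1, h2, one_smul] at h3
        rw [sub_mul, mul_sub, mul_sub, h3, one_mul, mul_one, mul_one, two_smul]
        abel
      ram := fun q hq hqp => hram q ((hm q).mp hq) q.2 hqp _ (CFT.padicPlace_liesOver (q : ℕ))
      scal := fun q hq => absurd hq (Finset.notMem_empty q)
      Lfin := hLf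
      Lrank := hLr
      Lcob := by
        intro X hX
        have h1 := Lp.neg_mem (hLc X hX)
        have e : TWPr.resD k (CFT.pP p) (TWPr.cob ρb X) =
            -(fun σ : DD (padicPlace p) => X - ρb (σ : GQ) * X * ρb (σ : GQ)⁻¹) := by
          funext σ
          change ρb (σ : GQ) * X * ρb (σ : GQ)⁻¹ - X = -(X - ρb (σ : GQ) * X * ρb (σ : GQ)⁻¹)
          rw [neg_sub]
        rw [e]
        exact h1 }
  obtain ⟨r, hr⟩ := H.exists_selmer (l3Hyp hcond.lev) (S : Set ℕ) S.finite_toSet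
  refine ⟨r, fun n => ?_⟩
  obtain ⟨Q, hQr, hQ, Z, hZf, hZ, hZs, hZc⟩ := hr n
  refine ⟨Q, hQr, fun q hq => ?_, Z, hZf, ?_, ?_, ?_⟩
  · obtain ⟨h1, h2, h3, h4, h5⟩ := hQ q hq
    exact ⟨h1, fun h => h2 h, h4, h5⟩
  · rwa [Finset.card_empty, mul_zero, add_zero] at hZ
  · intro c hc
    refine hZs c ⟨⟨hc.coc, hc.tr, hc.lev⟩, ?_, ?_, fun q hq => absurd hq (Finset.notMem_empty q),
      hc.loc⟩
    · intro q hq _ hqQ A hA σ hσ
      exact hc.unr q q.2 (fun h => hq ((hm q).mpr h)) hqQ A hA σ hσ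
    · intro q hq hqp σ hσ
      exact hc.uni q ((hm q).mp hq) q.2 hqp _ (CFT.padicPlace_liesOver (q : ℕ)) σ hσ
  · intro X hX
    have h1 := Z.neg_mem (hZc X hX)
    have e : -(TWPr.cob ρb X) = fun g => X - ρb g * X * ρb g⁻¹ := by
      funext g
      change -(ρb g * X * ρb g⁻¹ - X) = _
      rw [neg_sub]
    rwa [e] at h1

/-- inertia groups at different places are conjugate -/
theorem ram_all {q : ℕ} (hq : q.Prime) {A : ValuationSubring Qbar} (hA : A.LiesOverPrime q)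
    (h : ∃ σ ∈ A.inertiaSubgroupIn ℚ, ρb σ ≠ 1) {A' : ValuationSubring Qbar}
    (hA' : A'.LiesOverPrime q) : ∃ σ ∈ A'.inertiaSubgroupIn ℚ, ρb σ ≠ 1 := by
  by_contra hcon
  push Not at hcon
  obtain ⟨σ, hσ, hne⟩ := h
  exact hne (TWInst.one_all_places hq hA' (T := ρb) hcon hA hσ)

/-! ### the residual representation -/

section Residual

variable {𝒪 : Type} [CommRing 𝒪] [IsDomain 𝒪] [IsDiscreteValuationRing 𝒪]
  [IsAdicComplete (maximalIdeal 𝒪) 𝒪] [Finite (ResidueField 𝒪)]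
  {ρbar : ResidualGaloisRep (ResidueField 𝒪)}

/-- spans of subgroups of index at most two -/
theorem span_of {K₀ : Type} [Field K₀] (ρbar : ResidualGaloisRep K₀)
    (b : Module.Basis (Fin 2) K₀ ρbar.V) (G : Subgroup GQ)
    (hG : ∀ V : Submodule (AlgebraicClosure K₀) (ρbar.baseChange (AlgebraicClosure K₀)).V,
        (∀ σ ∈ G, ∀ x ∈ V, (ρbar.baseChange (AlgebraicClosure K₀)).ρ σ x ∈ V) → V = ⊥ ∨ V = ⊤) :
    Submodule.span K₀ (resMatHom ρbar b '' (G : Set GQ)) = ⊤ := by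
  have h1 := DefRing.span_range_eq_top (k := K₀) (K := AlgebraicClosure K₀)
    ((resMatHom ρbar b).comp G.subtype) ?_
  · have h2 : Set.range ((resMatHom ρbar b).comp G.subtype) = resMatHom ρbar b '' (G : Set GQ) := by
      ext M
      constructor
      · rintro ⟨g, rfl⟩
        exact ⟨g, g.2, rfl⟩
      · rintro ⟨g, hg, rfl⟩
        exact ⟨⟨g, hg⟩, rfl⟩
    rwa [h2] at h1
  · intro W hW
    let K := AlgebraicClosure K₀
    let bK : Module.Basis (Fin 2) K (TensorProduct K₀ K ρbar.V) := Algebra.TensorProduct.basis K b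
    let e : (TensorProduct K₀ K ρbar.V) ≃ₗ[K] (Fin 2 → K) := bK.equivFun
    have he : ∀ (g : GQ) (x : TensorProduct K₀ K ρbar.V), e ((ρbar.ρ g).baseChange K x) =
        (resMatHom ρbar b g).map (algebraMap K₀ K) *ᵥ (e x) := by
      intro g x
      have h1 := LinearMap.toMatrix_mulVec_repr bK bK ((ρbar.ρ g).baseChange K) x
      have h2 : LinearMap.toMatrix bK bK ((ρbar.ρ g).baseChange K) =
          (resMatHom ρbar b g).map (algebraMap K₀ K) := LinearMap.toMatrix_baseChange K (ρbar.ρ g) b b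
      rw [h2] at h1
      exact h1.symm
    rcases hG (W.comap e.toLinearMap) (fun σ hσ x hx => by
      change e ((ρbar.ρ σ).baseChange K x) ∈ W
      rw [he]
      exact hW ⟨σ, hσ⟩ _ hx) with h | h
    · left
      rw [eq_bot_iff]
      intro x hx
      have h1 : e.symm x ∈ W.comap e.toLinearMap := by
        change e (e.symm x) ∈ W
        rwa [LinearEquiv.apply_symm_apply]
      rw [h, Submodule.mem_bot] at h1
      rw [Submodule.mem_bot, ← e.apply_symm_apply x, h1, map_zero]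
    · right
      rw [eq_top_iff]
      intro x _
      have h1 : e.symm x ∈ W.comap e.toLinearMap := by rw [h]; trivial
      change e (e.symm x) ∈ W at h1
      rwa [LinearEquiv.apply_symm_apply] at h1

theorem exists_T {𝒟 : PCond 𝒪} (D : DeformationRingData 𝒪 ρbar 𝒟)
    (b : Module.Basis (Fin 2) (ResidueField 𝒪) ρbar.V) :
    ∃ (κ : D.R →ₐ[𝒪] ResidueField 𝒪) (T : GQ →* Matrix (Fin 2) (Fin 2) D.R) (hT : MatCont T),
      D.ρ.IsEquiv (matRep T hT) ∧ ∀ g, (T g).map κ = resMatHom ρbar b g := by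
  obtain ⟨κ, hκ⟩ := exists_kappa D.residue_surjective
  obtain ⟨T, hT, hres, he⟩ := exists_matRep ρbar b _ D.ρ D.residual_isEquiv
  refine ⟨κ, T, hT, he, ?_⟩
  intro g
  ext i j
  rw [Matrix.map_apply]
  apply (ResidueField.map (algebraMap 𝒪 D.R)).injective
  rw [hκ, hres]; rfl

/-- the vacuous case -/
theorem half_vacuous (𝒟 : Finset ℕ → PCond 𝒪) (S : Finset ℕ)
    (h : ∀ Q, ∀ _ : DeformationRingData 𝒪 ρbar (𝒟 Q), False) :
    ∃ r : ℕ, ∀ n : ℕ, ∃ qv : Fin r → ℕ, Function.Injective qv ∧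
      (∀ i, (qv i).Prime ∧ qv i ∉ S ∧ p ^ (n + 1) ∣ qv i - 1) ∧
      (∀ i, ∀ P : ValuationSubring (AlgebraicClosure ℚ), P.LiesOverPrime (qv i) →
        ∀ φ : AlgebraicClosure ℚ ≃ₐ[ℚ] AlgebraicClosure ℚ, P.IsFrobeniusAt φ (qv i) →
          ∃ α β : ResidueField 𝒪, α ≠ β ∧ LinearMap.charpoly (ρbar.ρ φ) =
            (Polynomial.X - Polynomial.C α) * (Polynomial.X - Polynomial.C β)) ∧
      ∀ DQ : DeformationRingData 𝒪 ρbar (𝒟 (Finset.univ.image qv)),
        ∃ γ : MvPowerSeries (Fin r) 𝒪 →ₐ[𝒪] DQ.R, Function.Surjective γ :=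
  ⟨0, fun _ => ⟨fun i => i.elim0, fun i => i.elim0, fun i => i.elim0, fun i => i.elim0,
    fun DQ => (h _ DQ).elim⟩⟩

variable [Algebra (ZMod p) (ResidueField 𝒪)]

/-- **both halves** -/
theorem s56_of (hH1 : H1Van p (ResidueField 𝒪)) (hZ1 : Z1Bound p (ResidueField 𝒪))
    (hp2 : p ≠ 2) (hp𝒪 : (p : 𝒪) ∈ maximalIdeal 𝒪)
    (habs : ρbar.IsAbsolutelyIrreducible)
    (hdet : (GaloisRepAdic.ofResidualGaloisRep ρbar).DetIsCyclotomic p)
    (hsplit : ∀ σ : AlgebraicClosure ℚ ≃ₐ[ℚ] AlgebraicClosure ℚ,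
      ∃ α β : ResidueField 𝒪, LinearMap.charpoly (ρbar.ρ σ) =
        (Polynomial.X - Polynomial.C α) * (Polynomial.X - Polynomial.C β))
    (hTW : ∀ (K : Type) [Field K] [Algebra (ResidueField 𝒪) K]
      (G : Subgroup (AlgebraicClosure ℚ ≃ₐ[ℚ] AlgebraicClosure ℚ)), G.index = 2 →
      ∀ V : Submodule K (ρbar.baseChange K).V,
        (∀ σ ∈ G, ∀ x ∈ V, (ρbar.baseChange K).ρ σ x ∈ V) → V = ⊥ ∨ V = ⊤)
    (S Smin : Finset ℕ) (hpSmin : p ∈ Smin)
    (hmin : ∀ q : ℕ, q.Prime → q ≠ p → (q ∈ Smin ↔ ¬ ρbar.IsUnramifiedAt q)) :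
    (∃ r : ℕ, ∀ n : ℕ, ∃ qv : Fin r → ℕ, Function.Injective qv ∧
      (∀ i, (qv i).Prime ∧ qv i ∉ S ∧ p ^ (n + 1) ∣ qv i - 1) ∧
      (∀ i, ∀ P : ValuationSubring (AlgebraicClosure ℚ), P.LiesOverPrime (qv i) →
        ∀ φ : AlgebraicClosure ℚ ≃ₐ[ℚ] AlgebraicClosure ℚ, P.IsFrobeniusAt φ (qv i) →
          ∃ α β : ResidueField 𝒪, α ≠ β ∧ LinearMap.charpoly (ρbar.ρ φ) =
            (Polynomial.X - Polynomial.C α) * (Polynomial.X - Polynomial.C β)) ∧
      ∀ DQ : GaloisRep.DeformationRingData 𝒪 ρbar (DCond 𝒪 p Smin (Smin ∪ Finset.univ.image qv)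
          (fun _A _ _ _ ρ => ρ.IsStrictOrdinaryAt p)),
        ∃ γ : MvPowerSeries (Fin r) 𝒪 →ₐ[𝒪] DQ.R, Function.Surjective γ) ∧
    (∃ r : ℕ, ∀ n : ℕ, ∃ qv : Fin r → ℕ, Function.Injective qv ∧
      (∀ i, (qv i).Prime ∧ qv i ∉ S ∧ p ^ (n + 1) ∣ qv i - 1) ∧
      (∀ i, ∀ P : ValuationSubring (AlgebraicClosure ℚ), P.LiesOverPrime (qv i) →
        ∀ φ : AlgebraicClosure ℚ ≃ₐ[ℚ] AlgebraicClosure ℚ, P.IsFrobeniusAt φ (qv i) →
          ∃ α β : ResidueField 𝒪, α ≠ β ∧ LinearMap.charpoly (ρbar.ρ φ) =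
            (Polynomial.X - Polynomial.C α) * (Polynomial.X - Polynomial.C β)) ∧
      ∀ DQ : GaloisRep.DeformationRingData 𝒪 ρbar (DCond 𝒪 p Smin (Smin ∪ Finset.univ.image qv)
          (fun _A _ _ _ ρ => ρ.IsFlatAt p)),
        ∃ γ : MvPowerSeries (Fin r) 𝒪 →ₐ[𝒪] DQ.R, Function.Surjective γ) := by
  classical
  set b : Module.Basis (Fin 2) (ResidueField 𝒪) ρbar.V :=
    Module.finBasisOfFinrankEq (ResidueField 𝒪) ρbar.V ρbar.finrank_eq with hb
  set ρb := resMatHom ρbar b with hρb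
  have hpk : (p : ResidueField 𝒪) = 0 := by
    rw [← map_natCast (residue 𝒪), residue_eq_zero_iff]; exact hp𝒪
  -- the residual representation as an adic representation
  have hrep : repMat (GaloisRepAdic.ofResidualGaloisRep ρbar) b = ρb := rfl
  have hlev : FinLev ρb 1 := by
    obtain ⟨L, hL, h1⟩ := ρbar.factorsThroughFiniteLevel
    refine ⟨L, hL, fun σ hσ => ?_⟩
    change LinearMap.toMatrix b b (ρbar.ρ σ) = 1
    rw [h1 σ hσ, Module.End.one_eq_id, LinearMap.toMatrix_id]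
  have hdet0 := (detCyc_iff (GaloisRepAdic.ofResidualGaloisRep ρbar) b).mp hdet
  have hdet1 : ∀ g, (ρb g).det = ((cyc p g : ZMod p).val : ResidueField 𝒪) := by
    intro g
    have h1 := hdet0.2 1 g _ (cyc_pow_one g)
    rw [hrep, pow_one, hpk, Ideal.span_singleton_eq_bot.mpr rfl, Ideal.mem_bot, sub_eq_zero] at h1
    exact h1
  have hchk : ∀ g, (ρb g).det = chk p (ResidueField 𝒪) g := by
    intro g
    rw [hdet1]
    change _ = algebraMap (ZMod p) (ResidueField 𝒪) (S43Glue.chiK p (ZMod p) g)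
    rw [chiK_eq_cyc]
    conv_rhs => rw [← ZMod.natCast_zmod_val (cyc p g : ZMod p)]
    rw [map_natCast]
  have hSp : ∀ G : Subgroup GQ, G.index = 1 ∨ G.index = 2 →
      Submodule.span (ResidueField 𝒪) (ρb '' (G : Set GQ)) = ⊤ := by
    rintro G (hG | hG)
    · refine span_of ρbar b G fun V hV => habs V fun σ x hx => hV σ ?_ x hx
      rw [Subgroup.index_eq_one.mp hG]; trivial
    · exact span_of ρbar b G fun V hV => hTW _ G hG V hV
  have hspan : Submodule.span (ResidueField 𝒪) (Set.range ρb) = ⊤ := by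
    have := hSp ⊤ (Or.inl Subgroup.index_top)
    rwa [Subgroup.coe_top, Set.image_univ] at this
  have hspl : ∀ σ, ∃ α β : ResidueField 𝒪, (ρb σ).trace = α + β ∧ (ρb σ).det = α * β := by
    intro σ
    obtain ⟨α, β, h⟩ := hsplit σ
    refine ⟨α, β, ?_⟩
    rw [← LinearMap.charpoly_toMatrix (ρbar.ρ σ) b, Matrix.charpoly_fin_two] at h
    have e : (Polynomial.X - Polynomial.C α) * (Polynomial.X - Polynomial.C β) =
        Polynomial.X ^ 2 - Polynomial.C (α + β) * Polynomial.X + Polynomial.C (α * β) := by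
      rw [map_add, map_mul]; ring
    rw [e] at h
    have h3 := congrArg (fun P => P.coeff 1) h
    have h4 := congrArg (fun P => P.coeff 0) h
    simp only [Polynomial.coeff_add, Polynomial.coeff_sub, Polynomial.coeff_X_pow,
      Polynomial.coeff_C_mul, Polynomial.coeff_X_one, mul_one, Polynomial.coeff_C_succ,
      add_zero, if_neg (by norm_num : ¬ (1 : ℕ) = 2), zero_sub, neg_inj] at h3
    simp only [Polynomial.coeff_add, Polynomial.coeff_sub, Polynomial.coeff_X_pow,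
      Polynomial.coeff_C_mul, Polynomial.coeff_X_zero, mul_zero, Polynomial.coeff_C_zero,
      sub_zero, if_neg (by norm_num : ¬ (0 : ℕ) = 2), zero_add] at h4
    exact ⟨h3, h4⟩
  have hcond : TWCond p (ResidueField 𝒪) ρb := twCond_of hp2 hH1 hlev hchk hSp hspl
  have hunr : ∀ q : ℕ, q.Prime → q ∉ Smin → ∀ A : ValuationSubring Qbar, A.LiesOverPrime q →
      ∀ σ ∈ A.inertiaSubgroupIn ℚ, ρb σ = 1 := by
    intro q hq hqS A hA σ hσ
    have hqp : q ≠ p := fun h => hqS (h ▸ hpSmin)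
    have h1 : ρbar.IsUnramifiedAt q := by
      by_contra h
      exact hqS ((hmin q hq hqp).mpr h)
    change LinearMap.toMatrix b b (ρbar.ρ σ) = 1
    rw [h1 A hA σ hσ, Module.End.one_eq_id, LinearMap.toMatrix_id]
  have hram : ∀ q ∈ Smin, q.Prime → q ≠ p → ∀ A : ValuationSubring Qbar, A.LiesOverPrime q →
      ∃ σ ∈ A.inertiaSubgroupIn ℚ, ρb σ ≠ 1 := by
    intro q hqS hq hqp A hA
    have h1 := (hmin q hq hqp).mp hqS
    unfold ResidualGaloisRep.IsUnramifiedAt at h1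
    push Not at h1
    obtain ⟨A', hA', σ, hσ, hne⟩ := h1
    refine ram_all (ρb := ρb) hq hA' ⟨σ, hσ, fun h => hne ?_⟩ hA
    apply (LinearMap.toMatrix b b).injective
    have h' : LinearMap.toMatrix b b (ρbar.ρ σ) = 1 := h
    rw [h', Module.End.one_eq_id, LinearMap.toMatrix_id]
  have hA0 := CFT.padicPlace_liesOver p
  -- consequences of the existence of deformation rings
  have hcons : ∀ (C : PCond 𝒪) (Q : Finset ℕ),
      DeformationRingData 𝒪 ρbar (DCond 𝒪 p Smin (Smin ∪ Q) C) →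
      ∀ q ∈ Smin, q.Prime → q ≠ p → ∀ A : ValuationSubring Qbar, A.LiesOverPrime q →
        ∀ σ ∈ A.inertiaSubgroupIn ℚ, (ρb σ).trace = 2 ∧ (ρb σ).det = 1 := by
    intro C Q D q hq hq' hqp A hA σ hσ
    obtain ⟨κ, T, hT, he, hκ⟩ := exists_T D b
    obtain ⟨b', hb'⟩ := exists_basis_of_equiv he
    obtain ⟨h1, h2⟩ := (uni_iff _ b').mp (D.isOfType.2 q hq hq' hqp) A hA σ hσ
    rw [hb'] at h1 h2
    have e : ρb σ = mapT (κ : D.R →+* ResidueField 𝒪) T σ := (hκ σ).symm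
    rw [e, trace_mapT, det_mapT, h1, h2, map_one, map_ofNat]
    exact ⟨rfl, rfl⟩
  constructor
  · -- the strict ordinary case
    by_cases hall : (∀ q ∈ Smin, q.Prime → q ≠ p → ∀ A : ValuationSubring Qbar,
        A.LiesOverPrime q → ∀ σ ∈ A.inertiaSubgroupIn ℚ, (ρb σ).trace = 2 ∧ (ρb σ).det = 1) ∧
        ∃ P Q : Matrix (Fin 2) (Fin 2) (ResidueField 𝒪), Adap p (padicPlace p) ρb P Q
    · obtain ⟨hu, P, Q, hPQ⟩ := hall
      obtain ⟨hLf, hLr⟩ := finrank_Lord (ρ := repD (padicPlace p) ρb) (P := P) (Q := Q)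
        (Z1c p (ResidueField 𝒪) (padicPlace p)) hZ1
      have hsel := selC_of_cond hp2 hcond Smin S hpSmin hunr hu hram
        (Lord (repD (padicPlace p) ρb) P Q (Z1c p (ResidueField 𝒪) (padicPlace p))) hLf hLr
        (fun X _ => cob_mem_Lord hlev hPQ X)
      refine half_of_sel (fun _A _ _ _ ρ => ρ.IsStrictOrdinaryAt p) hp2 hp𝒪 b hspan hdet1 Smin S
        _ ?_ ?_ hsel
      · intro R _ _ _ ρ T hT he hC κ
        obtain ⟨b', hb'⟩ := exists_basis_of_equiv he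
        obtain ⟨b'', hb''⟩ := exists_basis_matRep (mapT (triv κ : R →+* Dk 𝒪) T)
          (hT.map _ (isLocalHom_of_dk κ _))
        have h1 := ((ord_iff _ b').mp hC).2
        rw [hb'] at h1
        refine (ord_iff _ b'').mpr ⟨?_, ?_⟩
        · rw [← map_natCast (algebraMap 𝒪 (Dk 𝒪)), dk_mem_maximalIdeal_iff]
          exact (residue_eq_zero_iff _).mpr hp𝒪
        · rw [hb'']
          exact h1.map _
      · intro R _ _ _ ρ T hT he hC hd κ hκ ℓ hℓ
        obtain ⟨b', hb'⟩ := exists_basis_of_equiv he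
        have h1 := ((ord_iff _ b').mp hC).2
        rw [hb'] at h1
        exact coc_mem_Lord hp2 hA0 hκ hℓ hpk hT hd h1 hlev hPQ
    · refine half_vacuous (p := p) (fun Q => DCond 𝒪 p Smin (Smin ∪ Q)
        (fun _A _ _ _ ρ => ρ.IsStrictOrdinaryAt p)) S fun Q D => hall ⟨hcons _ _ D, ?_⟩
      obtain ⟨κ, T, hT, he, hκ⟩ := exists_T D b
      obtain ⟨b', hb'⟩ := exists_basis_of_equiv he
      have h1 := ((ord_iff _ b').mp D.isOfType.1.2.1).2
      rw [hb'] at h1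
      obtain ⟨B, B', h2, h3, h4, h5, h6⟩ := h1 _ hA0
      exact ⟨_, _, adap_of_mord hκ hpk h2 h3 h4 h5 h6⟩
  · -- the flat case
    by_cases hall : (∀ q ∈ Smin, q.Prime → q ≠ p → ∀ A : ValuationSubring Qbar,
        A.LiesOverPrime q → ∀ σ ∈ A.inertiaSubgroupIn ℚ, (ρb σ).trace = 2 ∧ (ρb σ).det = 1) ∧
        IsFlatMod (Zloc p) (vk ρb)
    · obtain ⟨hu, hV⟩ := hall
      obtain ⟨hLf, hLr⟩ := LpFlat_rank (k := ResidueField 𝒪) hp2 hchk hlev hV
      have hsel := selC_of_cond hp2 hcond Smin S hpSmin hunr hu hram (LpFlat p ρb hV) hLf hLr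
        (fun X hX => ⟨_, gfk_cob hV hlev hX, rfl⟩)
      refine half_of_sel (fun _A _ _ _ ρ => ρ.IsFlatAt p) hp2 hp𝒪 b hspan hdet1 Smin S
        _ ?_ ?_ hsel
      · intro R _ _ _ ρ T hT he hC κ
        obtain ⟨b', hb'⟩ := exists_basis_of_equiv he
        obtain ⟨b'', hb''⟩ := exists_basis_matRep (mapT (triv κ : R →+* Dk 𝒪) T)
          (hT.map _ (isLocalHom_of_dk κ _))
        have h1 := ((flatAt_iff _ b').mp hC).2
        rw [hb'] at h1
        haveI : Finite (Dk 𝒪) := inferInstanceAs (Finite (ResidueField 𝒪 × ResidueField 𝒪))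
        refine (flatAt_iff _ b'').mpr ⟨Finite.of_surjective (residue (Dk 𝒪)) residue_surjective, ?_⟩
        rw [hb'']
        exact h1.map _
      · intro R _ _ _ ρ T hT he hC hd κ hκ ℓ hℓ
        obtain ⟨b', hb'⟩ := exists_basis_of_equiv he
        have h1 := ((flatAt_iff _ b').mp hC).2
        rw [hb'] at h1
        exact ⟨_, gfk_coc hκ hℓ hT hpk hd h1, rfl⟩
    · refine half_vacuous (p := p) (fun Q => DCond 𝒪 p Smin (Smin ∪ Q)
        (fun _A _ _ _ ρ => ρ.IsFlatAt p)) S fun Q D => hall ⟨hcons _ _ D, ?_⟩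
      obtain ⟨κ, T, hT, he, hκ⟩ := exists_T D b
      obtain ⟨b', hb'⟩ := exists_basis_of_equiv he
      have h1 := ((flatAt_iff _ b').mp D.isOfType.1.2.1).2
      rw [hb'] at h1
      have h2 := h1.flat (κ : D.R →+* ResidueField 𝒪)
      have h3 : mapT (κ : D.R →+* ResidueField 𝒪) T = ρb := MonoidHom.ext fun g => hκ g
      rw [h3] at h2
      exact h2

end Residual

end Fermat.Agent.TW56
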