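import Fermat.Agent.TW56.Tan
import Fermat.Agent.TWInst.Cyclo

/-!
# The strict ordinary condition at `p`
-/

set_option autoImplicit false
set_option maxHeartbeats 400000
set_option linter.unusedSectionVars false

noncomputable section

namespace Fermat.Agent.TW56

open IsLocalRing Matrix Fermat.Agent.DefRing Fermat.Agent.GalRep Fermat.Agent.TWGal
  Fermat.Agent.TWPatch GaloisRep Fermat.Agent.FlatLoc

local notation "Qbar" => AlgebraicClosure ℚ

variable {p : ℕ} [hp : Fact p.Prime] {k : Type} [Field k] [Algebra (ZMod p) k]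

section Grp

variable {Γ : Type} [Group Γ] {ρ ρ' : Γ →* Matrix (Fin 2) (Fin 2) k} {χ : Γ → k}
  {c : Γ → Matrix (Fin 2) (Fin 2) k} {P Q : Matrix (Fin 2) (Fin 2) k}

lemma mul3_entry (L M N : Matrix (Fin 2) (Fin 2) k) (i j : Fin 2) :
    (L * M * N) i j = (L i 0 * M 0 0 + L i 1 * M 1 0) * N 0 j +
      (L i 0 * M 0 1 + L i 1 * M 1 1) * N 1 j := by
  rw [Matrix.mul_apply, Fin.sum_univ_two, Matrix.mul_apply, Matrix.mul_apply, Fin.sum_univ_two,
    Fin.sum_univ_two]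

/-- upper triangular representations -/
structure IsTri (ρ : Γ →* Matrix (Fin 2) (Fin 2) k) (χ : Γ → k) : Prop where
  low : ∀ σ, ρ σ 1 0 = 0
  rat : ∀ σ, ρ σ 0 0 = χ σ * ρ σ 1 1

/-- strictly upper triangular -/
def IsNil (N : Matrix (Fin 2) (Fin 2) k) : Prop := N 0 0 = 0 ∧ N 1 0 = 0 ∧ N 1 1 = 0

lemma IsNil.add {N N' : Matrix (Fin 2) (Fin 2) k} (h : IsNil N) (h' : IsNil N') :
    IsNil (N + N') := by
  refine ⟨?_, ?_, ?_⟩
  · rw [Matrix.add_apply, h.1, h'.1, add_zero]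
  · rw [Matrix.add_apply, h.2.1, h'.2.1, add_zero]
  · rw [Matrix.add_apply, h.2.2, h'.2.2, add_zero]

lemma IsTri.inv11 (h : IsTri ρ χ) (σ : Γ) : ρ σ 1 1 * ρ σ⁻¹ 1 1 = 1 := by
  have h1 : ρ σ * ρ σ⁻¹ = 1 := by rw [← map_mul, mul_inv_cancel, map_one]
  have h2 := congrFun (congrFun h1 1) 1
  rw [Matrix.mul_apply, Fin.sum_univ_two, h.low, zero_mul, zero_add, Matrix.one_apply_eq] at h2
  exact h2

lemma IsTri.inv00 (h : IsTri ρ χ) (σ : Γ) : ρ σ 0 0 * ρ σ⁻¹ 0 0 = 1 := by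
  have h1 : ρ σ * ρ σ⁻¹ = 1 := by rw [← map_mul, mul_inv_cancel, map_one]
  have h2 := congrFun (congrFun h1 0) 0
  rw [Matrix.mul_apply, Fin.sum_univ_two, h.low, mul_zero, add_zero, Matrix.one_apply_eq] at h2
  exact h2

lemma IsTri.conj_nil (h : IsTri ρ χ) (σ : Γ) {N : Matrix (Fin 2) (Fin 2) k} (hN : IsNil N) :
    IsNil (ρ σ * N * ρ σ⁻¹) ∧ (ρ σ * N * ρ σ⁻¹) 0 1 = χ σ * N 0 1 := by
  obtain ⟨h1, h2, h3⟩ := hN
  refine ⟨⟨?_, ?_, ?_⟩, ?_⟩
  · rw [mul3_entry, h1, h2, h3, h.low σ⁻¹]; ring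
  · rw [mul3_entry, h1, h2, h3, h.low σ⁻¹]; ring
  · rw [mul3_entry, h1, h2, h3, h.low σ]; ring
  · rw [mul3_entry, h1, h2, h3, h.rat]
    linear_combination (χ σ * N 0 1) * h.inv11 σ

/-- a cocycle with strictly upper triangular values -/
lemma IsTri.coc_nil (h : IsTri ρ χ) (hc : IsCock ρ c) (hN : ∀ σ, IsNil (c σ)) (σ τ : Γ) :
    c (σ * τ) 0 1 = c σ 0 1 + χ σ * c τ 0 1 := by
  rw [hc, Matrix.add_apply, (h.conj_nil σ (hN τ)).2]

/-- coboundaries of upper triangular matrices -/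
lemma IsTri.cob_nil (h : IsTri ρ χ) {Y : Matrix (Fin 2) (Fin 2) k} (hY : Y 1 0 = 0) (σ : Γ) :
    IsNil (Y - ρ σ * Y * ρ σ⁻¹) := by
  refine ⟨?_, ?_, ?_⟩
  · rw [Matrix.sub_apply, mul3_entry, hY, h.low σ⁻¹]
    linear_combination (- Y 0 0) * h.inv00 σ
  · rw [Matrix.sub_apply, mul3_entry, hY, h.low σ⁻¹, h.low σ]; ring
  · rw [Matrix.sub_apply, mul3_entry, hY, h.low σ]
    linear_combination (- Y 1 1) * h.inv11 σ

/-- the elementary matrix -/
def e12 (x : k) : Matrix (Fin 2) (Fin 2) k := !![0, x; 0, 0]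

def e21 : Matrix (Fin 2) (Fin 2) k := !![0, 0; 1, 0]

lemma eq_e12 {N : Matrix (Fin 2) (Fin 2) k} (h : IsNil N) : N = e12 (N 0 1) := by
  ext i j
  fin_cases i <;> fin_cases j
  · exact h.1
  · rfl
  · exact h.2.1
  · exact h.2.2

/-- conjugation of nilpotent matrices by upper triangular matrices -/
lemma nil_conj {M M' N : Matrix (Fin 2) (Fin 2) k} (hM : M 1 0 = 0) (hM' : M' 1 0 = 0)
    (hN : IsNil N) : IsNil (M * N * M') := by
  obtain ⟨h1, h2, h3⟩ := hN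
  refine ⟨?_, ?_, ?_⟩
  · rw [mul3_entry, h1, h2, h3, hM']; ring
  · rw [mul3_entry, h1, h2, h3, hM']; ring
  · rw [mul3_entry, h1, h2, h3, hM]; ring

/-- the linear map `w ↦ P e12(w) Q` -/
def upLin (P Q : Matrix (Fin 2) (Fin 2) k) : (Γ → k) →ₗ[k] (Γ → Matrix (Fin 2) (Fin 2) k) where
  toFun w σ := P * e12 (w σ) * Q
  map_add' w w' := by
    funext σ
    change P * e12 (w σ + w' σ) * Q = P * e12 (w σ) * Q + P * e12 (w' σ) * Q
    rw [← add_mul, ← mul_add]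
    congr 2
    ext i j; fin_cases i <;> fin_cases j <;> simp [e12]
  map_smul' a w := by
    funext σ
    change P * e12 (a * w σ) * Q = a • (P * e12 (w σ) * Q)
    rw [← Matrix.smul_mul, ← Matrix.mul_smul]
    congr 2
    ext i j; fin_cases i <;> fin_cases j <;> simp [e12]

/-- the coboundary map -/
def cobLin (ρ : Γ →* Matrix (Fin 2) (Fin 2) k) :
    Matrix (Fin 2) (Fin 2) k →ₗ[k] (Γ → Matrix (Fin 2) (Fin 2) k) where
  toFun X σ := X - ρ σ * X * ρ σ⁻¹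
  map_add' X X' := by
    funext σ
    rw [Pi.add_apply, mul_add, add_mul]; abel
  map_smul' a X := by
    funext σ
    rw [RingHom.id_apply, Pi.smul_apply, Matrix.mul_smul, Matrix.smul_mul, smul_sub]

/-- the local space at `p` -/
def Lord (ρ : Γ →* Matrix (Fin 2) (Fin 2) k) (P Q : Matrix (Fin 2) (Fin 2) k)
    (Z : Submodule k (Γ → k)) : Submodule k (Γ → Matrix (Fin 2) (Fin 2) k) :=
  Submodule.span k {cobLin ρ (P * e21 * Q)} ⊔ Z.map (upLin P Q)

lemma finrank_Lord (Z : Submodule k (Γ → k)) (hZ : Module.rank k Z ≤ (3 : ℕ)) :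
    Module.Finite k (Lord ρ P Q Z) ∧ Module.finrank k (Lord ρ P Q Z) ≤ 4 := by
  have hfin : Module.Finite k Z := by
    rw [← Module.rank_lt_aleph0_iff]
    exact hZ.trans_lt (Cardinal.natCast_lt_aleph0)
  have h3 : Module.finrank k Z ≤ 3 := by
    rw [← Module.finrank_eq_rank] at hZ
    exact_mod_cast hZ
  have hf1 : Module.Finite k (Submodule.span k {cobLin ρ (P * e21 * Q)}) := inferInstance
  have hf2 : Module.Finite k (Z.map (upLin P Q)) := inferInstance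
  have h4 : Module.finrank k (Z.map (upLin (Γ := Γ) P Q)) ≤ 3 :=
    (Submodule.finrank_map_le _ _).trans h3
  have h5 : Module.finrank k (Submodule.span k {cobLin ρ (P * e21 * Q)}) ≤ 1 := by
    have := finrank_span_le_card (R := k) ({cobLin ρ (P * e21 * Q)} : Set (Γ → Matrix (Fin 2) (Fin 2) k))
    simpa using this
  refine ⟨Submodule.finite_sup _ _, ?_⟩
  have h6 := Submodule.finrank_add_le_finrank_add_finrank
    (Submodule.span k {cobLin ρ (P * e21 * Q)}) (Z.map (upLin (Γ := Γ) P Q))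
  unfold Lord
  omega

/-- membership in the local space -/
theorem mem_Lord (hPQ : Chg P Q) (h : IsTri (hPQ.rep ρ) χ) (Z : Submodule k (Γ → k))
    (hc : IsCock ρ c) (X : Matrix (Fin 2) (Fin 2) k)
    (hn : ∀ σ, IsNil (Q * (c σ - cobLin ρ X σ) * P))
    (hZ : ∀ c' : Γ → Matrix (Fin 2) (Fin 2) k, ∀ Y : Matrix (Fin 2) (Fin 2) k,
      c' = c - cobLin ρ Y → (∀ σ τ, (Q * c' (σ * τ) * P) 0 1 =
        (Q * c' σ * P) 0 1 + χ σ * (Q * c' τ * P) 0 1) → (fun σ => (Q * c' σ * P) 0 1) ∈ Z) :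
    c ∈ Lord ρ P Q Z := by
  -- `Y = X - ` lower part
  set y : k := (Q * X * P) 1 0 with hy
  set c' : Γ → Matrix (Fin 2) (Fin 2) k := c - cobLin ρ (y • (P * e21 * Q)) with hc'
  have hPe : Q * (P * e21 * Q) * P = (e21 : Matrix (Fin 2) (Fin 2) k) := by
    calc Q * (P * e21 * Q) * P = (Q * P) * e21 * (Q * P) := by simp only [mul_assoc]
      _ = e21 := by rw [hPQ.qp, one_mul, mul_one]
  have hcob : ∀ (Y : Matrix (Fin 2) (Fin 2) k) σ, Q * cobLin ρ Y σ * P =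
      (Q * Y * P) - hPQ.rep ρ σ * (Q * Y * P) * hPQ.rep ρ σ⁻¹ := by
    intro Y σ
    change Q * (Y - ρ σ * Y * ρ σ⁻¹) * P = Q * Y * P - Q * ρ σ * P * (Q * Y * P) * (Q * ρ σ⁻¹ * P)
    rw [mul_sub, sub_mul]
    congr 1
    calc Q * (ρ σ * Y * ρ σ⁻¹) * P = Q * ρ σ * 1 * Y * 1 * ρ σ⁻¹ * P := by
          simp only [mul_one, mul_assoc]
      _ = Q * ρ σ * (P * Q) * Y * (P * Q) * ρ σ⁻¹ * P := by rw [hPQ.pq]
      _ = _ := by simp only [mul_assoc]
  -- the shape of `c'`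
  have hshape : ∀ σ, IsNil (Q * c' σ * P) := by
    intro σ
    have e1 : Q * c' σ * P = Q * (c σ - cobLin ρ X σ) * P +
        Q * cobLin ρ (X - y • (P * e21 * Q)) σ * P := by
      rw [hc', map_sub, ← add_mul, ← mul_add]
      congr 2
      simp only [Pi.sub_apply]
      abel
    rw [e1, hcob]
    refine (hn σ).add (h.cob_nil ?_ σ)
    rw [mul_sub, sub_mul, Matrix.mul_smul, Matrix.smul_mul, hPe, Matrix.sub_apply, ← hy]
    simp [e21]
  have hcock : IsCock ρ c' := by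
    intro σ τ
    have h1 := isCock_cob (ρ := ρ) (y • (P * e21 * Q)) σ τ
    change c (σ * τ) - cobLin ρ (y • (P * e21 * Q)) (σ * τ) = (c σ - cobLin ρ (y • (P * e21 * Q)) σ) +
      ρ σ * (c τ - cobLin ρ (y • (P * e21 * Q)) τ) * ρ σ⁻¹
    change cobLin ρ (y • (P * e21 * Q)) (σ * τ) = cobLin ρ (y • (P * e21 * Q)) σ +
      ρ σ * cobLin ρ (y • (P * e21 * Q)) τ * ρ σ⁻¹ at h1
    rw [h1, hc σ τ, mul_sub, sub_mul]
    abel
  have hw := hZ c' _ hc' (fun σ τ => h.coc_nil (hPQ.cock hcock) hshape σ τ)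
  have e2 : c = cobLin ρ (y • (P * e21 * Q)) + upLin P Q (fun σ => (Q * c' σ * P) 0 1) := by
    funext σ
    have e3 : upLin P Q (fun σ => (Q * c' σ * P) 0 1) σ = c' σ := by
      change P * e12 ((Q * c' σ * P) 0 1) * Q = c' σ
      rw [← eq_e12 (hshape σ)]
      calc P * (Q * c' σ * P) * Q = (P * Q) * c' σ * (P * Q) := by simp only [mul_assoc]
        _ = c' σ := by rw [hPQ.pq, one_mul, mul_one]
    rw [Pi.add_apply, e3, hc', Pi.sub_apply]
    abel
  rw [e2, map_smul]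
  refine Submodule.add_mem _ ?_ ?_
  · exact Submodule.smul_mem _ _ (Submodule.mem_sup_left (Submodule.mem_span_singleton_self _))
  · exact Submodule.mem_sup_right (Submodule.mem_map_of_mem hw)

end Grp

/-! ### decomposition groups -/

section Dec

variable {A : ValuationSubring Qbar} {ρb : GQ →* Matrix (Fin 2) (Fin 2) k}

/-- the mod `p` cyclotomic character on a decomposition group -/
def chiD (p : ℕ) [Fact p.Prime] (k : Type) [Field k] [Algebra (ZMod p) k]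
    (A : ValuationSubring Qbar) : DD A → k :=
  fun σ => algebraMap (ZMod p) k (cyc p (σ : GQ))

/-- cyclotomic cocycles of finite level -/
def Z1c (p : ℕ) [Fact p.Prime] (k : Type) [Field k] [Algebra (ZMod p) k]
    (A : ValuationSubring Qbar) : Submodule k (DD A → k) where
  carrier := {u | (∀ σ τ, u (σ * τ) = u σ + algebraMap (ZMod p) k (cyc p (σ : GQ)) * u τ) ∧
    ∃ K₀ : IntermediateField ℚ Qbar, FiniteDimensional ℚ K₀ ∧
      ∀ σ : DD A, (∀ x ∈ K₀, (σ : GQ) x = x) → u σ = 0}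
  add_mem' := by
    rintro u u' ⟨h1, K, hK, h2⟩ ⟨h1', K', hK', h2'⟩
    refine ⟨fun σ τ => ?_, K ⊔ K', inferInstance, fun σ hσ => ?_⟩
    · rw [Pi.add_apply, Pi.add_apply, Pi.add_apply, h1, h1']; ring
    · rw [Pi.add_apply, h2 σ fun x hx => hσ x ((le_sup_left : K ≤ K ⊔ K') hx),
        h2' σ fun x hx => hσ x ((le_sup_right : K' ≤ K ⊔ K') hx), add_zero]
  zero_mem' := ⟨fun σ τ => by simp, ⊥, inferInstance, fun _ _ => rfl⟩
  smul_mem' := by
    rintro a u ⟨h1, K, hK, h2⟩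
    refine ⟨fun σ τ => ?_, K, hK, fun σ hσ => ?_⟩
    · rw [Pi.smul_apply, Pi.smul_apply, Pi.smul_apply, h1, smul_eq_mul, smul_eq_mul, smul_eq_mul]
      ring
    · rw [Pi.smul_apply, h2 σ hσ, smul_zero]

/-- restriction to the decomposition group -/
abbrev resD' (A : ValuationSubring Qbar) {X : Type*} (f : GQ → X) : DD A → X := fun σ => f σ

/-- restriction of representations -/
abbrev repD (A : ValuationSubring Qbar) (ρb : GQ →* Matrix (Fin 2) (Fin 2) k) :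
    DD A →* Matrix (Fin 2) (Fin 2) k := ρb.comp (A.decompositionSubgroup ℚ).subtype

/-- adapted bases -/
structure Adap (p : ℕ) [Fact p.Prime] {k : Type} [Field k] [Algebra (ZMod p) k]
    (A : ValuationSubring Qbar) (ρb : GQ →* Matrix (Fin 2) (Fin 2) k)
    (B B' : Matrix (Fin 2) (Fin 2) k) : Prop where
  chg : Chg B B'
  tri : IsTri (chg.rep (repD A ρb)) (chiD p k A)
  one : ∀ σ ∈ A.inertiaSubgroupIn ℚ, (B' * ρb σ * B) 1 1 = 1

theorem inertia_le_decomp {σ : GQ} (hσ : σ ∈ A.inertiaSubgroupIn ℚ) :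
    σ ∈ A.decompositionSubgroup ℚ := by
  obtain ⟨τ, -, rfl⟩ := hσ
  exact τ.2

theorem exists_inertia_cyc (hp2 : p ≠ 2) (hA : A.LiesOverPrime p) :
    ∃ σ ∈ A.inertiaSubgroupIn ℚ, algebraMap (ZMod p) k (cyc p σ) ≠ 1 := by
  haveI : NeZero p := ⟨hp.out.ne_zero⟩
  have h2 : (2 : ZMod p) ≠ 0 := by
    intro h
    have : ((2 : ℕ) : ZMod p) = 0 := by exact_mod_cast h
    rw [ZMod.natCast_eq_zero_iff] at this
    have := (Nat.prime_dvd_prime_iff_eq hp.out Nat.prime_two).mp this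
    exact hp2 this
  obtain ⟨σ, hσ, hu⟩ := TWInst.exists_inertia_zq hp.out hA (-1 : (ZMod p)ˣ)
  refine ⟨σ, hσ, ?_⟩
  have h1 : (cyc p σ : ZMod p) = -1 := by
    have h3 := TWInst.zq_spec p σ
    rw [hu] at h3
    have h4 : ∀ μ : Qbar, μ ^ p = 1 → σ μ = μ ^ ((-1 : (ZMod p)ˣ) : ZMod p).val := by
      intro μ hμ
      obtain ⟨i, -, rfl⟩ := (TWInst.zeta_spec p).eq_pow_of_pow_eq_one hμ
      rw [map_pow, h3, ← pow_mul, ← pow_mul, mul_comm]
    have h5 := cyc_eq h4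
    rw [ZMod.natCast_zmod_val] at h5
    rw [h5]; simp
  rw [h1, map_neg, map_one]
  intro h
  have h6 : algebraMap (ZMod p) k 2 = 0 := by
    rw [map_ofNat]
    linear_combination -h
  exact h2 ((map_eq_zero _).mp h6)

theorem Adap.trans (hp2 : p ≠ 2) (hA : A.LiesOverPrime p) {B B' B₁ B₁' : Matrix (Fin 2) (Fin 2) k}
    (h : Adap p A ρb B B') (h' : Adap p A ρb B₁ B₁') : (B' * B₁) 1 0 = 0 := by
  obtain ⟨σ, hσ, hne⟩ := exists_inertia_cyc (k := k) hp2 hA
  have hσD := inertia_le_decomp hσ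
  have h1 : (B' * ρb σ * B) * (B' * B₁) = (B' * B₁) * (B₁' * ρb σ * B₁) := by
    calc (B' * ρb σ * B) * (B' * B₁) = B' * ρb σ * (B * B') * B₁ := by simp only [mul_assoc]
      _ = B' * (B₁ * B₁') * ρb σ * B₁ := by rw [h.chg.pq, h'.chg.pq, mul_one, mul_one]
      _ = _ := by simp only [mul_assoc]
  have h2 := congrFun (congrFun h1 1) 0
  rw [Matrix.mul_apply, Matrix.mul_apply, Fin.sum_univ_two, Fin.sum_univ_two] at h2
  have h3 : (B' * ρb σ * B) 1 0 = 0 := h.tri.low ⟨σ, hσD⟩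
  have h4 : (B₁' * ρb σ * B₁) 1 0 = 0 := h'.tri.low ⟨σ, hσD⟩
  have h5 : (B₁' * ρb σ * B₁) 0 0 = algebraMap (ZMod p) k (cyc p σ) := by
    have := h'.tri.rat ⟨σ, hσD⟩
    rw [h'.chg.rep_apply] at this
    have e : (B₁' * ρb σ * B₁) 0 0 = chiD p k A ⟨σ, hσD⟩ * (B₁' * ρb σ * B₁) 1 1 := this
    rw [e, h'.one σ hσ, mul_one]
    rfl
  rw [h3, h4, h.one σ hσ, h5] at h2
  have h6 : (B' * B₁) 1 0 * (1 - algebraMap (ZMod p) k (cyc p σ)) = 0 := by linear_combination h2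
  rcases mul_eq_zero.mp h6 with h7 | h7
  · exact h7
  · exact absurd (sub_eq_zero.mp h7).symm hne

theorem cob_mem_Lord (hlev : FinLev ρb 1) {P Q : Matrix (Fin 2) (Fin 2) k}
    (hPQ : Adap p A ρb P Q) (X : Matrix (Fin 2) (Fin 2) k) :
    (fun σ : DD A => X - ρb (σ : GQ) * X * ρb (σ : GQ)⁻¹) ∈ Lord (repD A ρb) P Q (Z1c p k A) := by
  refine mem_Lord hPQ.chg hPQ.tri _ (c := fun σ : DD A => X - ρb (σ : GQ) * X * ρb (σ : GQ)⁻¹)
    (X := X) (isCock_cob (ρ := repD A ρb) X) (fun σ => ?_) ?_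
  · have e1 : X - ρb (σ : GQ) * X * ρb (σ : GQ)⁻¹ - cobLin (repD A ρb) X σ = 0 := sub_self _
    rw [e1, mul_zero, zero_mul]
    exact ⟨rfl, rfl, rfl⟩
  · intro c' Y hc' hmul
    refine ⟨hmul, ?_⟩
    obtain ⟨K', hK', hK1'⟩ := hlev
    refine ⟨K', hK', fun σ hσ => ?_⟩
    have e2 := hK1' (σ : GQ) hσ
    have e3 : ρb (σ : GQ)⁻¹ = 1 := by
      have : ρb (σ : GQ) * ρb (σ : GQ)⁻¹ = 1 := by rw [← map_mul, mul_inv_cancel, map_one]
      rwa [e2, one_mul] at this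
    have e4 : c' σ = 0 := by
      rw [hc']
      change (X - ρb (σ : GQ) * X * ρb (σ : GQ)⁻¹) - (Y - ρb (σ : GQ) * Y * ρb (σ : GQ)⁻¹) = 0
      rw [e2, e3]; simp
    change (Q * c' σ * P) 0 1 = 0
    rw [e4, mul_zero, zero_mul]; rfl

end Dec

/-! ### tangent cocycles of strictly ordinary representations -/

section Tan

variable {𝒪 : Type} [CommRing 𝒪] [IsLocalRing 𝒪] {R : Type} [CommRing R] [IsLocalRing R]
  [Algebra 𝒪 R] {κ : R →ₐ[𝒪] ResidueField 𝒪} {J : Set R} {ℓ : R → ResidueField 𝒪}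
  {T : GQ →* Matrix (Fin 2) (Fin 2) R} {ρb : GQ →* Matrix (Fin 2) (Fin 2) (ResidueField 𝒪)}
  [Algebra (ZMod p) (ResidueField 𝒪)] {A : ValuationSubring Qbar}

theorem adap_of_mord (hρ : ∀ g, (T g).map κ = ρb g) (hpk : (p : ResidueField 𝒪) = 0)
    {B B' : Matrix (Fin 2) (Fin 2) R} (h1 : B * B' = 1) (h2 : B' * B = 1)
    (h3 : ∀ σ ∈ A.decompositionSubgroup ℚ, (B' * T σ * B) 1 0 = 0)
    (h4 : ∀ σ ∈ A.inertiaSubgroupIn ℚ, (B' * T σ * B) 1 1 = 1)
    (h5 : ∀ σ ∈ A.decompositionSubgroup ℚ, ∀ n a : ℕ, (∀ μ : Qbar, μ ^ p ^ n = 1 → σ μ = μ ^ a) →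
      (B' * T σ * B) 0 0 - (a : R) * (B' * T σ * B) 1 1 ∈ Ideal.span {((p ^ n : ℕ) : R)}) :
    Adap p A ρb (B.map κ) (B'.map κ) := by
  have key : ∀ σ i j, (B'.map κ * ρb σ * B.map κ) i j = κ ((B' * T σ * B) i j) := by
    intro σ i j
    have : B'.map κ * ρb σ * B.map κ = (B' * T σ * B).map κ := by
      rw [← hρ, Matrix.map_mul, Matrix.map_mul]
    rw [this, Matrix.map_apply]
  have hchg : Chg (B.map κ) (B'.map κ) :=
    ⟨by rw [← Matrix.map_mul, h1, Matrix.map_one _ (map_zero κ) (map_one κ)],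
      by rw [← Matrix.map_mul, h2, Matrix.map_one _ (map_zero κ) (map_one κ)]⟩
  refine ⟨hchg, ⟨fun σ => ?_, fun σ => ?_⟩, fun σ hσ => ?_⟩
  · rw [hchg.rep_apply]
    change (B'.map κ * ρb σ * B.map κ) 1 0 = 0
    rw [key, h3 _ σ.2, map_zero]
  · rw [hchg.rep_apply]
    change (B'.map κ * ρb σ * B.map κ) 0 0 = chiD p (ResidueField 𝒪) A σ *
      (B'.map κ * ρb σ * B.map κ) 1 1
    have h6 := kappa_of_span (κ := κ) hpk (h5 σ σ.2 1 _ (cyc_pow_one (σ : GQ)))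
    rw [map_sub, map_mul, map_natCast, sub_eq_zero] at h6
    rw [key, key, h6]
    congr 1
    unfold chiD
    conv_rhs => rw [← ZMod.natCast_zmod_val (cyc p (σ : GQ) : ZMod p)]
    rw [map_natCast]
  · rw [key, h4 σ hσ, map_one]

/-- **tangent cocycles of strictly ordinary deformations** -/
theorem coc_mem_Lord (hp2 : p ≠ 2) (hA : A.LiesOverPrime p) (hρ : ∀ g, (T g).map κ = ρb g)
    (h : ℓ ∈ Der κ J) (hpk : (p : ResidueField 𝒪) = 0) (hT : MatCont T) (hdet : MDet p T)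
    (hord : MOrd p T) (hlev : FinLev ρb 1)
    {P Q : Matrix (Fin 2) (Fin 2) (ResidueField 𝒪)} (hPQ : Adap p A ρb P Q) :
    (fun σ : DD A => coc T ρb ℓ (σ : GQ)) ∈ Lord (repD A ρb) P Q (Z1c p (ResidueField 𝒪) A) := by
  obtain ⟨B, B', h1, h2, h3, h4, h5⟩ := hord A hA
  have hB := adap_of_mord hρ hpk h1 h2 h3 h4 h5
  have h20 : (2 : ResidueField 𝒪) ≠ 0 := by
    intro h0
    have h2p : (2 : ZMod p) ≠ 0 := by
      intro h
      have : ((2 : ℕ) : ZMod p) = 0 := by exact_mod_cast h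
      rw [ZMod.natCast_eq_zero_iff] at this
      exact hp2 ((Nat.prime_dvd_prime_iff_eq hp.out Nat.prime_two).mp this)
    exact h2p ((map_eq_zero (algebraMap (ZMod p) (ResidueField 𝒪))).mp (by rw [map_ofNat, h0]))
  -- derivatives of the entries
  have hentry : ∀ σ ∈ A.decompositionSubgroup ℚ,
      ℓ ((B' * T σ * B) 1 1) = 0 ∧ ℓ ((B' * T σ * B) 0 0) = 0 := by
    intro σ hσ
    set a : ℕ := (cyc p σ : ZMod p).val with ha
    set z := (B' * T σ * B) 1 1 with hz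
    set x := (B' * T σ * B) 0 0 with hx
    have e1 := h5 σ hσ 1 a (cyc_pow_one σ)
    have e2 := hdet 1 σ a (cyc_pow_one σ)
    have e3 : (T σ).det = x * z := by
      have e4 : (B' * T σ * B).det = (T σ).det := by
        have e5 := congrArg Matrix.det h1
        rw [Matrix.det_mul, Matrix.det_one] at e5
        rw [Matrix.det_mul, Matrix.det_mul]
        linear_combination (T σ).det * e5
      rw [← e4, Matrix.det_fin_two, h3 σ hσ, mul_zero, sub_zero]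
    rw [e3] at e2
    have e6 : (a : R) * (z * z) - a ∈ Ideal.span {((p ^ 1 : ℕ) : R)} := by
      have : (a : R) * (z * z) - a = (x * z - a) - (x - a * z) * z := by ring
      rw [this]
      exact Ideal.sub_mem _ e2 (Ideal.mul_mem_right _ _ e1)
    have e7 := der_of_span h hpk e6
    rw [Der.sub h, Der.natCast h, sub_zero, Der.mul h, Der.natCast h, zero_mul, add_zero,
      Der.mul h, map_natCast] at e7
    have e8 : (a : ResidueField 𝒪) ≠ 0 := by
      rw [ha, ← map_natCast (algebraMap (ZMod p) (ResidueField 𝒪)), ZMod.natCast_zmod_val]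
      exact (map_ne_zero _).mpr (Units.ne_zero _)
    have e9 : κ z ≠ 0 := by
      intro h0
      have := kappa_of_span (κ := κ) hpk e6
      rw [map_sub, map_mul, map_mul, map_natCast, h0] at this
      apply e8
      linear_combination -this
    have e10 : ℓ z = 0 := by
      have e11 : (2 * κ z) * ℓ z = 0 := by
        have := (mul_eq_zero.mp e7).resolve_left e8
        linear_combination this
      exact (mul_eq_zero.mp e11).resolve_left (mul_ne_zero h20 e9)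
    refine ⟨e10, ?_⟩
    have e12 := der_of_span h hpk e1
    rw [Der.sub h, Der.mul h, e10, Der.natCast h, mul_zero, zero_mul, add_zero, sub_zero] at e12
    exact e12
  -- the cocycle
  set X := B.map ℓ * B'.map κ with hX
  have hBl : B'.map ℓ = - (B'.map κ * B.map ℓ * B'.map κ) := by
    have e1 := map_der_mul h B B'
    rw [h1, map_der_one h] at e1
    have e2 : B.map κ * B'.map ℓ = - (B.map ℓ * B'.map κ) := by
      rw [← add_eq_zero_iff_eq_neg]; exact e1.symm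
    calc B'.map ℓ = (B'.map κ * B.map κ) * B'.map ℓ := by rw [hB.chg.qp, one_mul]
      _ = B'.map κ * (B.map κ * B'.map ℓ) := by rw [mul_assoc]
      _ = _ := by rw [e2, mul_neg, mul_assoc]
  have hcoc : ∀ σ : GQ, coc T ρb ℓ σ - (X - ρb σ * X * ρb σ⁻¹) =
      B.map κ * ((B' * T σ * B).map ℓ * (B'.map κ * ρb σ⁻¹ * B.map κ)) * B'.map κ := by
    intro σ
    have e0 : T σ = B * (B' * T σ * B) * B' := by
      calc T σ = (B * B') * T σ * (B * B') := by rw [h1, one_mul, mul_one]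
        _ = _ := by simp only [mul_assoc]
    have eU : (B' * T σ * B).map κ = B'.map κ * ρb σ * B.map κ := by
      rw [← hρ, Matrix.map_mul, Matrix.map_mul]
    have e1 : (T σ).map ℓ = B.map κ * (B'.map κ * ρb σ * B.map κ) * B'.map ℓ +
        (B.map κ * (B' * T σ * B).map ℓ + B.map ℓ * (B'.map κ * ρb σ * B.map κ)) * B'.map κ := by
      conv_lhs => rw [e0]
      rw [map_der_mul h, map_der_mul h, Matrix.map_mul, eU]
    have e2 : coc T ρb ℓ σ = (T σ).map ℓ * ρb σ⁻¹ := rfl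
    have hr : ρb σ * ρb σ⁻¹ = 1 := by rw [← map_mul, mul_inv_cancel, map_one]
    have hpq := hB.chg.pq
    have hqp := hB.chg.qp
    rw [e2, e1, hBl, hX]
    have t1 : B.map κ * (B'.map κ * ρb σ * B.map κ) * -(B'.map κ * B.map ℓ * B'.map κ) * ρb σ⁻¹ =
        - (ρb σ * (B.map ℓ * B'.map κ) * ρb σ⁻¹) := by
      calc _ = - ((B.map κ * B'.map κ) * ρb σ * (B.map κ * B'.map κ) * (B.map ℓ * B'.map κ) *
            ρb σ⁻¹) := by simp only [mul_neg, neg_mul, mul_assoc]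
        _ = _ := by rw [hpq, one_mul, mul_one]
    have t2 : B.map ℓ * (B'.map κ * ρb σ * B.map κ) * B'.map κ * ρb σ⁻¹ =
        B.map ℓ * B'.map κ := by
      calc _ = B.map ℓ * B'.map κ * ρb σ * (B.map κ * B'.map κ) * ρb σ⁻¹ := by
            simp only [mul_assoc]
        _ = B.map ℓ * B'.map κ * (ρb σ * ρb σ⁻¹) := by rw [hpq, mul_one, mul_assoc]
        _ = _ := by rw [hr, mul_one]
    have t3 : B.map κ * (B' * T σ * B).map ℓ * B'.map κ * ρb σ⁻¹ =
        B.map κ * ((B' * T σ * B).map ℓ * (B'.map κ * ρb σ⁻¹ * B.map κ)) * B'.map κ := by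
      calc _ = B.map κ * (B' * T σ * B).map ℓ * B'.map κ * ρb σ⁻¹ * (B.map κ * B'.map κ) := by
            rw [hpq, mul_one]
        _ = _ := by simp only [mul_assoc]
    rw [add_mul, add_mul, add_mul, t1, t2, t3]
    abel
  have hnil : ∀ σ : DD A, IsNil ((B' * T (σ : GQ) * B).map ℓ * (B'.map κ * ρb (σ : GQ)⁻¹ * B.map κ)) := by
    intro σ
    have h10 : ℓ ((B' * T (σ : GQ) * B) 1 0) = 0 := by rw [h3 _ σ.2]; exact Der.zero h
    obtain ⟨h11, h00⟩ := hentry (σ : GQ) σ.2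
    have hl : (B'.map κ * ρb (σ : GQ)⁻¹ * B.map κ) 1 0 = 0 := hB.tri.low σ⁻¹
    refine ⟨?_, ?_, ?_⟩
    · rw [Matrix.mul_apply, Fin.sum_univ_two, Matrix.map_apply, Matrix.map_apply, h00, hl]; ring
    · rw [Matrix.mul_apply, Fin.sum_univ_two, Matrix.map_apply, Matrix.map_apply, h10, h11]; ring
    · rw [Matrix.mul_apply, Fin.sum_univ_two, Matrix.map_apply, Matrix.map_apply, h10, h11]; ring
  refine mem_Lord hPQ.chg hPQ.tri _ (X := X) ?_ (fun σ => ?_) ?_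
  · intro σ τ
    exact TWInst.isCock_coc hρ h (σ : GQ) (τ : GQ)
  · have e1 : coc T ρb ℓ (σ : GQ) - cobLin (repD A ρb) X σ =
        B.map κ * ((B' * T (σ : GQ) * B).map ℓ * (B'.map κ * ρb (σ : GQ)⁻¹ * B.map κ)) * B'.map κ :=
      hcoc σ
    have e2 : Q * (coc T ρb ℓ (σ : GQ) - cobLin (repD A ρb) X σ) * P =
        (Q * B.map κ) * ((B' * T (σ : GQ) * B).map ℓ * (B'.map κ * ρb (σ : GQ)⁻¹ * B.map κ)) *
          (B'.map κ * P) := by
      rw [e1]; simp only [mul_assoc]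
    rw [e2]
    exact nil_conj (hPQ.trans hp2 hA hB) (hB.trans hp2 hA hPQ) (hnil σ)
  · intro c' Y hc' hmul
    refine ⟨hmul, ?_⟩
    obtain ⟨K, hK, hK1⟩ := finLev_coc hρ h hT
    obtain ⟨K', hK', hK1'⟩ := hlev
    refine ⟨K ⊔ K', inferInstance, fun σ hσ => ?_⟩
    have e1 := hK1 (σ : GQ) fun x hx => hσ x ((le_sup_left : K ≤ K ⊔ K') hx)
    have e2 := hK1' (σ : GQ) fun x hx => hσ x ((le_sup_right : K' ≤ K ⊔ K') hx)
    have e3 : ρb (σ : GQ)⁻¹ = 1 := by
      have : ρb (σ : GQ) * ρb (σ : GQ)⁻¹ = 1 := by rw [← map_mul, mul_inv_cancel, map_one]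
      rwa [e2, one_mul] at this
    have e4 : c' σ = 0 := by
      rw [hc']
      change coc T ρb ℓ (σ : GQ) - (Y - ρb (σ : GQ) * Y * ρb (σ : GQ)⁻¹) = 0
      rw [e1, e2, e3, one_mul, mul_one, sub_self, sub_zero]
    change (Q * c' σ * P) 0 1 = 0
    rw [e4, mul_zero, zero_mul]; rfl

end Tan

end Fermat.Agent.TW56
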