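import Fermat.Agent.TW56.Cond
import Fermat.Agent.TWGal.Local

/-!
# Tangent cocycles
-/

set_option autoImplicit false
set_option maxHeartbeats 400000
set_option linter.unusedSectionVars false

noncomputable section

namespace Fermat.Agent.TW56

open IsLocalRing Matrix Fermat.Agent.DefRing Fermat.Agent.GalRep Fermat.Agent.TWGal
  Fermat.Agent.TWPatch GaloisRep

local notation "Qbar" => AlgebraicClosure ℚ

/-! ### flatness -/

section Flat

variable {p : ℕ} [hp : Fact p.Prime] {A : Type} [CommRing A]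

/-- flatness, matrix form -/
def MFlat (p : ℕ) {A : Type} [CommRing A] (T : GQ →* Matrix (Fin 2) (Fin 2) A) : Prop :=
  ∀ I : Ideal A, Finite (A ⧸ I) → I ≠ ⊤ →
    FlatLoc.IsFlatMod (FlatLoc.Zloc p) (vecRep (mapT (Ideal.Quotient.mk I) T))

/-- flatness over finite rings -/
theorem MFlat.flat {T : GQ →* Matrix (Fin 2) (Fin 2) A} (hT : MFlat p T) {M : Type} [CommRing M]
    [Finite M] [Nontrivial M] (f : A →+* M) :
    FlatLoc.IsFlatMod (FlatLoc.Zloc p) (vecRep (mapT f T)) := by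
  classical
  let g : A ⧸ RingHom.ker f →+* M := RingHom.kerLift f
  have hg : Function.Injective g := RingHom.kerLift_injective f
  have hfin : Finite (A ⧸ RingHom.ker f) := Finite.of_injective g hg
  have h1 := hT (RingHom.ker f) hfin (RingHom.ker_ne_top f)
  have hR := FlatLoc.isBase_Zloc hp.out
  obtain ⟨n, ⟨e⟩⟩ := Finite.exists_equiv_fin M
  refine (FlatLoc.flat_pi hR h1 n).subquot hR ⊤ (fun _ _ _ => trivial)
    (AddMonoidHom.mk' (fun x i => ∑ j, g (x j i) * e.symm j) fun x y => by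
      funext i
      simp only [Pi.add_apply, map_add, add_mul, Finset.sum_add_distrib]) ?_ ?_
  · intro σ x _
    change (fun i => ∑ j, g (((mapT (Ideal.Quotient.mk (RingHom.ker f)) T) σ *ᵥ (x j)) i) *
      e.symm j) = (mapT f T σ) *ᵥ (fun i => ∑ j, g (x j i) * e.symm j)
    funext i
    have e1 : ∀ a b, g (mapT (Ideal.Quotient.mk (RingHom.ker f)) T σ a b) = mapT f T σ a b :=
      fun a b => RingHom.kerLift_mk f _
    simp only [Matrix.mulVec, dotProduct, map_sum, map_mul, Finset.sum_mul, Finset.mul_sum, e1,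
      mul_assoc]
    rw [Finset.sum_comm]
  · intro w
    refine ⟨fun j i => if j = e (w i) then 1 else 0, trivial, ?_⟩
    funext i
    change ∑ j, g (if j = e (w i) then 1 else 0) * e.symm j = w i
    rw [Finset.sum_eq_single (e (w i))]
    · rw [if_pos rfl, map_one, one_mul, Equiv.symm_apply_apply]
    · intro j _ hj
      rw [if_neg hj, map_zero, zero_mul]
    · intro h
      exact absurd (Finset.mem_univ _) h

theorem MFlat.map {T : GQ →* Matrix (Fin 2) (Fin 2) A} (hT : MFlat p T) {M : Type} [CommRing M]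
    [Finite M] (f : A →+* M) : MFlat p (mapT f T) := by
  intro I hI hI'
  haveI : Nontrivial (M ⧸ I) := Ideal.Quotient.nontrivial_iff.mpr hI'
  exact hT.flat ((Ideal.Quotient.mk I).comp f)

theorem flatAt_iff [IsLocalRing A] (ρ : GaloisRepAdic A) (b : Module.Basis (Fin 2) A ρ.V) :
    ρ.IsFlatAt p ↔ Finite (ResidueField A) ∧ MFlat p (repMat ρ b) :=
  FlatHopf.isFlatAt_iff ρ b hp.out

end Flat

section Map

variable {A M : Type} [CommRing A] [CommRing M] (f : A →+* M) {p : ℕ}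
  {T : GQ →* Matrix (Fin 2) (Fin 2) A}

theorem det_mapT (σ : GQ) : (mapT f T σ).det = f (T σ).det := (RingHom.map_det f (T σ)).symm

theorem trace_mapT (σ : GQ) : (mapT f T σ).trace = f (T σ).trace := by
  rw [Matrix.trace_fin_two, Matrix.trace_fin_two, map_add]; rfl

theorem mem_span_map {x : A} {n : ℕ} (h : x ∈ Ideal.span {((p ^ n : ℕ) : A)}) :
    f x ∈ Ideal.span {((p ^ n : ℕ) : M)} := by
  have := Ideal.mem_map_of_mem f h
  rwa [Ideal.map_span, Set.image_singleton, map_natCast] at this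

variable [IsLocalRing A] [IsLocalRing M]

theorem MDet.map (h : MDet p T) : MDet p (mapT f T) := by
  intro n σ a ha
  rw [det_mapT, ← map_natCast f a, ← map_sub]
  exact mem_span_map f (h n σ a ha)

theorem MOrd.map (h : MOrd p T) : MOrd p (mapT f T) := by
  intro P hP
  obtain ⟨B, B', h1, h2, h3, h4, h5⟩ := h P hP
  have key : ∀ σ i j, (B'.map f * mapT f T σ * B.map f) i j = f ((B' * T σ * B) i j) := by
    intro σ i j
    have : B'.map f * mapT f T σ * B.map f = (B' * T σ * B).map f := by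
      rw [Matrix.map_mul, Matrix.map_mul]; rfl
    rw [this, Matrix.map_apply]
  refine ⟨B.map f, B'.map f, ?_, ?_, ?_, ?_, ?_⟩
  · rw [← Matrix.map_mul, h1, Matrix.map_one _ (map_zero f) (map_one f)]
  · rw [← Matrix.map_mul, h2, Matrix.map_one _ (map_zero f) (map_one f)]
  · intro σ hσ
    rw [key, h3 σ hσ, map_zero]
  · intro σ hσ
    rw [key, h4 σ hσ, map_one]
  · intro σ hσ n a ha
    rw [key, key, ← map_natCast f a, ← map_mul, ← map_sub]
    exact mem_span_map f (h5 σ hσ n a ha)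

end Map

/-! ### derivations -/

section Der

variable {𝒪 : Type} [CommRing 𝒪] [IsLocalRing 𝒪] {R : Type} [CommRing R] [IsLocalRing R]
  [Algebra 𝒪 R] {κ : R →ₐ[𝒪] ResidueField 𝒪} {J : Set R} {ℓ : R → ResidueField 𝒪}
  {T : GQ →* Matrix (Fin 2) (Fin 2) R} {ρb : GQ →* Matrix (Fin 2) (Fin 2) (ResidueField 𝒪)}
  {p : ℕ} [hp : Fact p.Prime]

theorem der_of_span (h : ℓ ∈ Der κ J) (hpR : (p : ResidueField 𝒪) = 0) {x : R}
    (hx : x ∈ Ideal.span {((p ^ 1 : ℕ) : R)}) : ℓ x = 0 := by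
  obtain ⟨y, rfl⟩ := Ideal.mem_span_singleton'.mp hx
  rw [pow_one, Der.mul h, Der.natCast h, mul_zero, zero_add, map_natCast, hpR, mul_zero]

theorem kappa_of_span (hpR : (p : ResidueField 𝒪) = 0) {x : R}
    (hx : x ∈ Ideal.span {((p ^ 1 : ℕ) : R)}) : κ x = 0 := by
  obtain ⟨y, rfl⟩ := Ideal.mem_span_singleton'.mp hx
  rw [pow_one, map_mul, map_natCast, hpR, mul_zero]

theorem cyc_pow_one (σ : GQ) : ∀ μ : Qbar, μ ^ p ^ 1 = 1 →
    σ μ = μ ^ (FlatLoc.cyc p σ : ZMod p).val := by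
  intro μ hμ
  rw [pow_one] at hμ
  exact FlatLoc.cyc_root σ hμ

theorem trace_zero (hρ : ∀ g, (T g).map κ = ρb g) (h : ℓ ∈ Der κ J)
    (hpR : (p : ResidueField 𝒪) = 0) (hdet : MDet p T) (g : GQ) :
    (coc T ρb ℓ g).trace = 0 := by
  refine TWInst.trace_coc' hρ h ?_
  have h1 := der_of_span h hpR (hdet 1 g _ (cyc_pow_one g))
  rwa [Der.sub h, Der.natCast h, sub_zero] at h1

theorem det_cyc [Algebra (ZMod p) (ResidueField 𝒪)] (hρ : ∀ g, (T g).map κ = ρb g)
    (hpR : (p : ResidueField 𝒪) = 0) (hdet : MDet p T) (g : GQ) :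
    (ρb g).det = algebraMap (ZMod p) (ResidueField 𝒪) (FlatLoc.cyc p g) := by
  have h1 := kappa_of_span (κ := κ) hpR (hdet 1 g _ (cyc_pow_one g))
  rw [map_sub, map_natCast, sub_eq_zero] at h1
  have h2 : (ρb g).det = κ (T g).det := by
    rw [← hρ]
    exact (RingHom.map_det (κ : R →+* ResidueField 𝒪) (T g)).symm
  rw [h2, h1]
  conv_rhs => rw [← ZMod.natCast_zmod_val (FlatLoc.cyc p g : ZMod p)]
  rw [map_natCast]

theorem trace_uni (hρ : ∀ g, (T g).map κ = ρb g) (h : ℓ ∈ Der κ J) {g : GQ}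
    (hg : (T g).trace = 2) : (coc T ρb ℓ g * ρb g).trace = 0 := by
  rw [trace_coc_mul hρ h, hg]
  have := Der.natCast h 2
  rwa [Nat.cast_ofNat] at this

theorem finLev_coc (hρ : ∀ g, (T g).map κ = ρb g) (h : ℓ ∈ Der κ J) (hT : MatCont T) :
    FlatLoc.FinLev (coc T ρb ℓ) 0 := coc_continuous hρ h hT

/-- flat cocycles -/
theorem gfk_coc [Finite (ResidueField 𝒪)] [Algebra (ZMod p) (ResidueField 𝒪)]
    (hρ : ∀ g, (T g).map κ = ρb g) (h : ℓ ∈ Der κ J) (hT : MatCont T)
    (hpR : (p : ResidueField 𝒪) = 0) (hdet : MDet p T) (hfl : MFlat p T) :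
    FlatLoc.GFK p ρb (coc T ρb ℓ) where
  coc := TWInst.isCock_coc hρ h
  tr := trace_zero hρ h hpR hdet
  lev := finLev_coc hρ h hT
  flat := by
    haveI : Finite (Dk 𝒪) := inferInstanceAs (Finite (ResidueField 𝒪 × ResidueField 𝒪))
    exact TWInst.flat_coc hρ h (hfl.flat _)

end Der

end Fermat.Agent.TW56
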