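import Fermat.Agent.TW56.Fin
import Fermat.Agent.AdH1.TW

/-!
# The vanishing of `H¹(im ρ, ad⁰(1))`
-/

set_option autoImplicit false

namespace Fermat.Agent.TW56

open Matrix Fermat.Agent.DefRing Fermat.Agent.GalRep Fermat.Agent.TWPr

variable {p : ℕ} [hp : Fact p.Prime] {k : Type} [Field k] [Finite k] [Algebra (ZMod p) k]

theorem h1Van (hp2 : p ≠ 2) : H1Van p k := by
  intro ρ hlev hdet hspan c hc h0
  refine AdH1.tw_h1 hp2 hdet ?_ c hc h0
  intro v hv
  by_contra hcon
  push Not at hcon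
  have h1 : ∀ M : Matrix (Fin 2) (Fin 2) k, ∃ a : k, M *ᵥ v = a • v := by
    intro M
    have hM : M ∈ Submodule.span k (Set.range ρ) := by rw [hspan]; trivial
    induction hM using Submodule.span_induction with
    | mem x hx => obtain ⟨g, rfl⟩ := hx; exact hcon g
    | zero => exact ⟨0, by rw [Matrix.zero_mulVec, zero_smul]⟩
    | add x y _ _ hx hy =>
      obtain ⟨a, ha⟩ := hx
      obtain ⟨b, hb⟩ := hy
      exact ⟨a + b, by rw [Matrix.add_mulVec, ha, hb, add_smul]⟩
    | smul a x _ hx =>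
      obtain ⟨b, hb⟩ := hx
      exact ⟨a * b, by rw [Matrix.smul_mulVec, hb, smul_smul]⟩
  -- `v ≠ 0` is an eigenvector of every matrix
  obtain ⟨a, ha⟩ := h1 !![0, 1; 0, 0]
  obtain ⟨b, hb⟩ := h1 !![0, 0; 1, 0]
  have a0 := congrFun ha 0
  have a1 := congrFun ha 1
  have b0 := congrFun hb 0
  have b1 := congrFun hb 1
  simp [Matrix.mulVec, dotProduct, Fin.sum_univ_two] at a0 a1 b0 b1
  apply hv
  funext i
  fin_cases i
  · change v 0 = 0
    rcases b0 with h | h
    · rw [h, zero_mul] at b1; exact b1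
    · exact h
  · change v 1 = 0
    rcases a1 with h | h
    · rw [h, zero_mul] at a0; exact a0
    · exact h

end Fermat.Agent.TW56
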