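import Fermat.Agent.TWGal.Gens
import Fermat.Agent.TWPatch.Eval
import Fermat.Prelude.Def_GaloisRep_DeformationRingData

/-!
# From the tangent space to a presentation of the deformation ring
-/

set_option autoImplicit false
set_option maxHeartbeats 400000
set_option linter.unusedSectionVars false

noncomputable section

namespace Fermat.Agent.TW56

open IsLocalRing Matrix Fermat.Agent.DefRing Fermat.Agent.GalRep Fermat.Agent.TWGal
  Fermat.Agent.TWPatch GaloisRep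

variable {𝒪 : Type} [CommRing 𝒪] [IsDomain 𝒪] [IsDiscreteValuationRing 𝒪]
  [IsAdicComplete (maximalIdeal 𝒪) 𝒪] [Finite (ResidueField 𝒪)]

/-- a deformation ring is a complete noetherian local ring with finite residue field -/
theorem cnl_of {R : Type} [CommRing R] [IsLocalRing R] [IsNoetherianRing R]
    [IsAdicComplete (maximalIdeal R) R] [Algebra 𝒪 R] [IsLocalHom (algebraMap 𝒪 R)]
    (h : Function.Surjective (residue R ∘ algebraMap 𝒪 R)) : CNL R := by
  refine ⟨inferInstance, inferInstance, inferInstance, ?_⟩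
  have h1 : Function.Surjective (ResidueField.map (algebraMap 𝒪 R)) := by
    intro y
    obtain ⟨a, rfl⟩ := h y
    exact ⟨residue 𝒪 a, rfl⟩
  exact Finite.of_surjective _ h1

/-- the residue map -/
theorem exists_kappa {R : Type} [CommRing R] [IsLocalRing R] [Algebra 𝒪 R]
    [IsLocalHom (algebraMap 𝒪 R)] (h : Function.Surjective (residue R ∘ algebraMap 𝒪 R)) :
    ∃ κ : R →ₐ[𝒪] ResidueField 𝒪, ∀ a, ResidueField.map (algebraMap 𝒪 R) (κ a) = residue R a := by
  have h1 : Function.Bijective (ResidueField.map (algebraMap 𝒪 R)) := by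
    refine ⟨(ResidueField.map (algebraMap 𝒪 R)).injective, fun y => ?_⟩
    obtain ⟨a, rfl⟩ := h y
    exact ⟨residue 𝒪 a, rfl⟩
  let e := RingEquiv.ofBijective _ h1
  refine ⟨{ toRingHom := (e.symm : ResidueField R →+* ResidueField 𝒪).comp (residue R)
            commutes' := fun a => ?_ }, fun a => ?_⟩
  · change e.symm (residue R (algebraMap 𝒪 R a)) = residue 𝒪 a
    rw [RingEquiv.symm_apply_eq]; rfl
  · exact e.apply_symm_apply _

/-- the trivial homomorphism to the dual numbers -/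
def triv {R : Type} [CommRing R] [Algebra 𝒪 R] (κ : R →ₐ[𝒪] ResidueField 𝒪) : R →ₐ[𝒪] Dk 𝒪 :=
  dualHom (κ := κ) (J := ∅) (ℓ := 0) (Submodule.zero_mem _)

theorem isLocalHom_of_dk {R : Type} [CommRing R] [IsLocalRing R] [Algebra 𝒪 R]
    (κ : R →ₐ[𝒪] ResidueField 𝒪) (f : R →ₐ[𝒪] Dk 𝒪) : IsLocalHom (f : R →+* Dk 𝒪) := by
  refine ⟨fun a ha => ?_⟩
  by_contra hu
  have h1 : κ a = 0 := by
    have h2 : a ∈ RingHom.ker κ := by rw [TWGal.ker_kappa κ]; exact hu
    exact h2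
  have h3 : f a ∈ maximalIdeal (Dk 𝒪) := by
    rw [dk_mem_maximalIdeal_iff, hom_fst κ f, h1]
  exact h3 ha

section Pair

/-- dual numbers -/
def mkD (a c : ResidueField 𝒪) : Dk 𝒪 := ((a, c) : ResidueField 𝒪 × ResidueField 𝒪)

theorem mkD_mul (a c a' c' : ResidueField 𝒪) :
    (mkD a c : Dk 𝒪) * mkD a' c' = mkD (a * a') (a * c' + c * a') := by
  refine Prod.ext rfl ?_
  change a • c' + MulOpposite.op a' • c = a * c' + c * a'
  rw [smul_eq_mul, op_smul_eq_mul]

/-- matrices over the dual numbers -/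
def ofPair (M N : Matrix (Fin 2) (Fin 2) (ResidueField 𝒪)) : Matrix (Fin 2) (Fin 2) (Dk 𝒪) :=
  fun i j => mkD (M i j) (N i j)

theorem ofPair_mul (M N M' N' : Matrix (Fin 2) (Fin 2) (ResidueField 𝒪)) :
    (ofPair M N : Matrix (Fin 2) (Fin 2) (Dk 𝒪)) * ofPair M' N' = ofPair (M * M') (M * N' + N * M') := by
  ext i j
  rw [Matrix.mul_apply, Fin.sum_univ_two]
  have e1 : ofPair M N i 0 * ofPair M' N' 0 j = mkD (M i 0 * M' 0 j) (M i 0 * N' 0 j + N i 0 * M' 0 j) :=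
    mkD_mul _ _ _ _
  have e2 : ofPair M N i 1 * ofPair M' N' 1 j = mkD (M i 1 * M' 1 j) (M i 1 * N' 1 j + N i 1 * M' 1 j) :=
    mkD_mul _ _ _ _
  rw [e1, e2]
  refine Prod.ext ?_ ?_
  · change M i 0 * M' 0 j + M i 1 * M' 1 j = (M * M') i j
    rw [Matrix.mul_apply, Fin.sum_univ_two]
  · change (M i 0 * N' 0 j + N i 0 * M' 0 j) + (M i 1 * N' 1 j + N i 1 * M' 1 j) =
      (M * N' + N * M') i j
    rw [Matrix.add_apply, Matrix.mul_apply, Matrix.mul_apply, Fin.sum_univ_two, Fin.sum_univ_two]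
    ring

theorem ofPair_one : (ofPair 1 0 : Matrix (Fin 2) (Fin 2) (Dk 𝒪)) = 1 := by
  ext i j
  rw [Matrix.one_apply]
  change mkD ((1 : Matrix (Fin 2) (Fin 2) (ResidueField 𝒪)) i j) (0 : ResidueField 𝒪) = _
  rw [Matrix.one_apply]
  split_ifs <;> rfl

end Pair

section Main

variable {ρbar : ResidualGaloisRep (ResidueField 𝒪)}
    {𝒟 : ∀ ⦃A : Type⦄ [CommRing A] [IsLocalRing A] [Algebra 𝒪 A], GaloisRepAdic A → Prop}

/-- **presentation of deformation rings** -/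
theorem exists_surj (D : DeformationRingData 𝒪 ρbar 𝒟)
    (b : Module.Basis (Fin 2) (ResidueField 𝒪) ρbar.V) (h2 : (2 : ResidueField 𝒪) ≠ 0)
    (hspan : Submodule.span (ResidueField 𝒪) (Set.range (resMatHom ρbar b)) = ⊤) {r : ℕ}
    (hpush : ∀ (κ : D.R →ₐ[𝒪] ResidueField 𝒪) (T : GQ →* Matrix (Fin 2) (Fin 2) D.R)
      (hT : MatCont T), D.ρ.IsEquiv (matRep T hT) →
      𝒟 (matRep (mapT (triv κ : D.R →+* Dk 𝒪) T) (hT.map _ (isLocalHom_of_dk κ _))))
    (Z : Submodule (ResidueField 𝒪) (GQ → Matrix (Fin 2) (Fin 2) (ResidueField 𝒪)))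
    [FiniteDimensional (ResidueField 𝒪) Z]
    (hZ : Module.finrank (ResidueField 𝒪) Z ≤ r + 3)
    (hcob : ∀ X : Matrix (Fin 2) (Fin 2) (ResidueField 𝒪), X.trace = 0 →
      (fun g => X - resMatHom ρbar b g * X * resMatHom ρbar b g⁻¹) ∈ Z)
    (hc : ∀ (κ : D.R →ₐ[𝒪] ResidueField 𝒪) (T : GQ →* Matrix (Fin 2) (Fin 2) D.R)
      (hT : MatCont T), D.ρ.IsEquiv (matRep T hT) →
      (∀ g, (T g).map κ = resMatHom ρbar b g) →
      ∀ ℓ ∈ Der κ (∅ : Set D.R), coc T (resMatHom ρbar b) ℓ ∈ Z) :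
    ∃ γ : MvPowerSeries (Fin r) 𝒪 →ₐ[𝒪] D.R, Function.Surjective γ := by
  obtain ⟨κ, hκ⟩ := exists_kappa D.residue_surjective
  have hcnl : CNL D.R := cnl_of D.residue_surjective
  have hcnlO : CNL 𝒪 := ⟨inferInstance, inferInstance, inferInstance, inferInstance⟩
  obtain ⟨T, hT, hres, he⟩ := exists_matRep ρbar b _ D.ρ D.residual_isEquiv
  have hρ : ∀ g, (T g).map κ = resMatHom ρbar b g := by
    intro g
    ext i j
    rw [Matrix.map_apply]
    apply (ResidueField.map (algebraMap 𝒪 D.R)).injective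
    rw [hκ, hres]; rfl
  have hDk : CNL (Dk 𝒪) := by
    have : IsArtinianRing (Dk 𝒪) := inferInstance
    exact ⟨inferInstance, inferInstance, inferInstance,
      Finite.of_surjective (residue (Dk 𝒪)) residue_surjective⟩
  -- universality
  have hinj : ∀ ℓ ∈ Der κ (∅ : Set D.R), ∀ X : Matrix (Fin 2) (Fin 2) (ResidueField 𝒪),
      (∀ g, (T g).map ℓ + (X * resMatHom ρbar b g - resMatHom ρbar b g * X) = 0) → ℓ = 0 := by
    intro ℓ hℓ X h3
    set φ₀ : D.R →ₐ[𝒪] Dk 𝒪 := triv κ with hφ₀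
    set φ : D.R →ₐ[𝒪] Dk 𝒪 := dualHom hℓ with hφ
    have hl₀ : IsLocalHom (φ₀ : D.R →+* Dk 𝒪) := isLocalHom_of_dk κ _
    have hl : IsLocalHom (φ : D.R →+* Dk 𝒪) := isLocalHom_of_dk κ _
    -- conjugation by `1 + ε X`
    set Q : Matrix (Fin 2) (Fin 2) (Dk 𝒪) := ofPair 1 X with hQd
    set Q' : Matrix (Fin 2) (Fin 2) (Dk 𝒪) := ofPair 1 (-X) with hQd'
    have hQ : Q * Q' = 1 := by
      rw [hQd, hQd', ofPair_mul, ← ofPair_one]
      congr 1
      · rw [mul_one]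
      · rw [one_mul, mul_one, neg_add_cancel]
    have hQ' : Q' * Q = 1 := by
      rw [hQd, hQd', ofPair_mul, ← ofPair_one]
      congr 1
      · rw [mul_one]
      · rw [one_mul, mul_one, add_neg_cancel]
    have hconj : ∀ g, Q * mapT (φ : D.R →+* Dk 𝒪) T g = mapT (φ₀ : D.R →+* Dk 𝒪) T g * Q := by
      intro g
      have e1 : mapT (φ : D.R →+* Dk 𝒪) T g = ofPair ((T g).map κ) ((T g).map ℓ) := rfl
      have e2 : mapT (φ₀ : D.R →+* Dk 𝒪) T g = ofPair ((T g).map κ) 0 := rfl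
      rw [e1, e2, hQd, ofPair_mul, ofPair_mul, hρ]
      congr 1
      · rw [one_mul, mul_one]
      · have h4 := h3 g
        rw [one_mul, zero_mul, add_zero]
        have h5 : (T g).map ℓ + X * resMatHom ρbar b g = resMatHom ρbar b g * X := by
          rw [← sub_eq_zero, ← h4]; abel
        exact h5
    have heq : (D.ρ.baseChangeAlong (φ : D.R →+* Dk 𝒪) hl).IsEquiv
        (matRep (mapT (φ₀ : D.R →+* Dk 𝒪) T) (hT.map _ hl₀)) := by
      obtain ⟨e⟩ := he
      obtain ⟨e1⟩ := matRep_baseChangeAlong (φ : D.R →+* Dk 𝒪) hl hT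
      obtain ⟨e2⟩ := matRep_isEquiv_of_conj (hT.map (φ : D.R →+* Dk 𝒪) hl)
        (hT.map (φ₀ : D.R →+* Dk 𝒪) hl₀) Q Q' hQ hQ' hconj
      exact ⟨((e.baseChangeAlong _ hl).trans e1).trans e2⟩
    have heq₀ : (D.ρ.baseChangeAlong (φ₀ : D.R →+* Dk 𝒪) hl₀).IsEquiv
        (matRep (mapT (φ₀ : D.R →+* Dk 𝒪) T) (hT.map _ hl₀)) := by
      obtain ⟨e⟩ := he
      obtain ⟨e1⟩ := matRep_baseChangeAlong (φ₀ : D.R →+* Dk 𝒪) hl₀ hT
      exact ⟨(e.baseChangeAlong _ hl₀).trans e1⟩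
    have htest : IsArtinianTestAlgebra 𝒪 (Dk 𝒪) := test_dk
    have hlocO : IsLocalHom (algebraMap 𝒪 (Dk 𝒪)) := htest.isLocalHom
    have hresid : (matRep (mapT (φ₀ : D.R →+* Dk 𝒪) T) (hT.map _ hl₀)).residual.IsEquiv
        (ρbar.baseChangeAlong (ResidueField.map (algebraMap 𝒪 (Dk 𝒪)))) := by
      refine matRep_residual_isEquiv ρbar b _ _ _ fun g i j => ?_
      obtain ⟨a, ha⟩ := residue_surjective (R := 𝒪) (resMat ρbar b g i j)
      rw [← ha, ResidueField.map_residue]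
      congr 1
      have h6 : κ (T g i j) = residue 𝒪 a := by
        rw [ha]
        have := congrFun (congrFun (hρ g) i) j
        rwa [Matrix.map_apply] at this
      refine Prod.ext h6 rfl
    obtain ⟨ψ, -, huniq⟩ := D.universal (Dk 𝒪) htest.residue_surjective _ (hpush κ T hT he) hresid
    have h4 : φ = φ₀ := (huniq φ ⟨hl, heq⟩).trans (huniq φ₀ ⟨hl₀, heq₀⟩).symm
    funext a
    exact congrArg (fun f : D.R →ₐ[𝒪] Dk 𝒪 => TrivSqZeroExt.snd (R := ResidueField 𝒪) (M := ResidueField 𝒪) (f a)) h4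
  obtain ⟨hfin, hle⟩ := finrank_der_le' (J := (∅ : Set D.R)) hρ hspan h2 hinj Z hZ
    (fun X hX c hc => Z.add_mem hc (hcob X hX)) (fun ℓ hℓ => hc κ T hT he hρ ℓ hℓ)
  obtain ⟨x, hx, hxm⟩ := exists_gens (κ := κ) (∅ : Set D.R) (by simp) r hfin hle
  obtain ⟨Φ, hΦl, hΦC, hΦX⟩ := exists_evalMv (algebraMap 𝒪 D.R) x hx
  have hsurj : Function.Surjective Φ := by
    refine surjective_of_cotangent Φ (fun y => ?_) ?_
    · obtain ⟨a, ha⟩ := D.residue_surjective (residue D.R y)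
      refine ⟨MvPowerSeries.C a, ?_⟩
      rw [← IsLocalRing.residue_eq_zero_iff, map_sub, hΦC, sub_eq_zero]
      exact ha.symm
    · refine hxm.trans (sup_le_sup (sup_le (sup_le ?_ ?_) ?_) le_rfl)
      · rw [Ideal.span_le]
        rintro _ ⟨i, rfl⟩
        rw [← hΦX]
        refine Ideal.mem_map_of_mem Φ ?_
        rw [mem_maximalIdeal, mem_nonunits_iff, MvPowerSeries.isUnit_iff_constantCoeff,
          MvPowerSeries.constantCoeff_X]
        exact not_isUnit_zero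
      · simp
      · rw [Ideal.map_le_iff_le_comap]
        intro a ha
        rw [Ideal.mem_comap, ← hΦC]
        refine Ideal.mem_map_of_mem Φ ?_
        rw [mem_maximalIdeal, mem_nonunits_iff, MvPowerSeries.isUnit_iff_constantCoeff,
          MvPowerSeries.constantCoeff_C]
        exact ha
  exact ⟨{ toRingHom := Φ, commutes' := fun a => hΦC a }, hsurj⟩

end Main

end Fermat.Agent.TW56
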