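import Fermat.Agent.TW56.Alg
import Fermat.Agent.GalRep.WrapAdic
import Fermat.Agent.FlatHopf.Glue
import Fermat.Agent.TWInst.CocLem
import Fermat.Agent.FlatLoc.KSub
import Fermat.Prelude.Def_GaloisRep_StrictOrdinary
import Fermat.Prelude.Def_GaloisRep_Flat

/-!
# Local conditions in terms of matrices
-/

set_option autoImplicit false
set_option maxHeartbeats 400000
set_option linter.unusedSectionVars false

noncomputable section

namespace Fermat.Agent.TW56

open IsLocalRing Matrix Fermat.Agent.DefRing Fermat.Agent.GalRep Fermat.Agent.TWGal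
  Fermat.Agent.TWPatch GaloisRep

local notation "Qbar" => AlgebraicClosure ℚ

section Basic

variable {A : Type} [CommRing A] [IsLocalRing A]

theorem exists_basis_of_equiv {ρ : GaloisRepAdic A} {T : GQ →* Matrix (Fin 2) (Fin 2) A}
    {hT : MatCont T} (h : ρ.IsEquiv (matRep T hT)) :
    ∃ b : Module.Basis (Fin 2) A ρ.V, repMat ρ b = T := by
  obtain ⟨e⟩ := h
  let e' : ρ.V ≃ₗ[A] (Fin 2 → A) := e.toLinearEquiv
  refine ⟨(Pi.basisFun A (Fin 2)).map e'.symm, ?_⟩
  ext g i j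
  rw [repMat_apply, LinearMap.toMatrix_apply]
  have h1 : e' (ρ.ρ g (e'.symm (Pi.single j 1))) = T g *ᵥ (Pi.single j 1) := by
    have := e.map_apply g (e'.symm (Pi.single j 1))
    refine this.trans ?_
    change (matRep T hT).ρ g (e' (e'.symm (Pi.single j 1))) = _
    rw [LinearEquiv.apply_symm_apply]
    rfl
  have h2 : ((Pi.basisFun A (Fin 2)).map e'.symm).repr
      (ρ.ρ g (((Pi.basisFun A (Fin 2)).map e'.symm) j)) i =
      e' (ρ.ρ g (e'.symm (Pi.single j 1))) i := by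
    rw [Module.Basis.map_apply, Pi.basisFun_apply]
    rfl
  rw [h2, h1, Matrix.mulVec_single_one]
  rfl

theorem exists_basis_matRep (T : GQ →* Matrix (Fin 2) (Fin 2) A) (hT : MatCont T) :
    ∃ b : Module.Basis (Fin 2) A (matRep T hT).V, repMat (matRep T hT) b = T :=
  exists_basis_of_equiv ⟨GaloisRepAdic.Equiv.refl _⟩

/-- cyclotomic determinant -/
def MDet (p : ℕ) (T : GQ →* Matrix (Fin 2) (Fin 2) A) : Prop :=
  ∀ (n : ℕ) (σ : GQ) (a : ℕ), (∀ μ : Qbar, μ ^ p ^ n = 1 → σ μ = μ ^ a) →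
    (T σ).det - (a : A) ∈ Ideal.span {((p ^ n : ℕ) : A)}

/-- strict ordinary, matrix form -/
def MOrd (p : ℕ) (T : GQ →* Matrix (Fin 2) (Fin 2) A) : Prop :=
  ∀ P : ValuationSubring Qbar, P.LiesOverPrime p → ∃ B B' : Matrix (Fin 2) (Fin 2) A,
    B * B' = 1 ∧ B' * B = 1 ∧ (∀ σ ∈ P.decompositionSubgroup ℚ, (B' * T σ * B) 1 0 = 0) ∧
    (∀ σ ∈ P.inertiaSubgroupIn ℚ, (B' * T σ * B) 1 1 = 1) ∧
    ∀ σ ∈ P.decompositionSubgroup ℚ, ∀ n a : ℕ, (∀ μ : Qbar, μ ^ p ^ n = 1 → σ μ = μ ^ a) →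
      (B' * T σ * B) 0 0 - (a : A) * (B' * T σ * B) 1 1 ∈ Ideal.span {((p ^ n : ℕ) : A)}

variable (ρ : GaloisRepAdic A) (b : Module.Basis (Fin 2) A ρ.V)

theorem detCyc_iff {p : ℕ} : ρ.DetIsCyclotomic p ↔
    (p : A) ∈ maximalIdeal A ∧ MDet p (repMat ρ b) := by
  unfold GaloisRepAdic.DetIsCyclotomic MDet
  simp only [repMat_apply, LinearMap.det_toMatrix]

theorem unr_iff {q : ℕ} : ρ.IsUnramifiedAt q ↔ ∀ P : ValuationSubring Qbar,
    P.LiesOverPrime q → ∀ σ ∈ P.inertiaSubgroupIn ℚ, repMat ρ b σ = 1 := by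
  have h1 : ∀ σ, repMat ρ b σ = 1 ↔ ρ.ρ σ = 1 := by
    intro σ
    rw [repMat_apply]
    constructor
    · intro h
      apply (LinearMap.toMatrix b b).injective
      rw [h, Module.End.one_eq_id, LinearMap.toMatrix_id]
    · intro h
      rw [h, Module.End.one_eq_id, LinearMap.toMatrix_id]
  unfold GaloisRepAdic.IsUnramifiedAt
  simp only [h1]

theorem uni_iff {q : ℕ} : ρ.IsUnipotentOnInertiaAt q ↔ ∀ P : ValuationSubring Qbar,
    P.LiesOverPrime q → ∀ σ ∈ P.inertiaSubgroupIn ℚ,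
      (repMat ρ b σ).trace = 2 ∧ (repMat ρ b σ).det = 1 := by
  have h1 : ∀ σ, LinearMap.charpoly (ρ.ρ σ) = (Polynomial.X - 1) ^ 2 ↔
      (repMat ρ b σ).trace = 2 ∧ (repMat ρ b σ).det = 1 := by
    intro σ
    rw [repMat_apply, ← LinearMap.charpoly_toMatrix (ρ.ρ σ) b, Matrix.charpoly_fin_two]
    constructor
    · intro h2
      have h3 := congrArg (fun P => P.coeff 1) h2
      have h4 := congrArg (fun P => P.coeff 0) h2
      have e1 : ((Polynomial.X - 1 : Polynomial A) ^ 2) =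
          Polynomial.X ^ 2 - Polynomial.C 2 * Polynomial.X + Polynomial.C 1 := by
        rw [Polynomial.C_1, map_ofNat]; ring
      rw [e1] at h3 h4
      simp only [Polynomial.coeff_add, Polynomial.coeff_sub, Polynomial.coeff_X_pow,
        Polynomial.coeff_C_mul, Polynomial.coeff_X_one, mul_one, Polynomial.coeff_C_succ,
        add_zero, if_neg (by norm_num : ¬ (1 : ℕ) = 2), zero_sub, neg_inj] at h3
      simp only [Polynomial.coeff_add, Polynomial.coeff_sub, Polynomial.coeff_X_pow,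
        Polynomial.coeff_C_mul, Polynomial.coeff_X_zero, mul_zero, Polynomial.coeff_C_zero,
        sub_zero, if_neg (by norm_num : ¬ (0 : ℕ) = 2), zero_add] at h4
      exact ⟨h3, h4⟩
    · rintro ⟨h2, h3⟩
      rw [h2, h3, Polynomial.C_1, map_ofNat]; ring
  unfold GaloisRepAdic.IsUnipotentOnInertiaAt
  simp only [h1]

theorem ord_iff {p : ℕ} : ρ.IsStrictOrdinaryAt p ↔
    (p : A) ∈ maximalIdeal A ∧ MOrd p (repMat ρ b) := by
  unfold GaloisRepAdic.IsStrictOrdinaryAt MOrd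
  refine and_congr_right fun _ => forall_congr' fun P => imp_congr_right fun hP => ?_
  constructor
  · rintro ⟨L, ⟨b₀, rfl⟩, hD, hI, hx⟩
    have key : ∀ σ, b₀.toMatrix b * repMat ρ b σ * b.toMatrix b₀ =
        LinearMap.toMatrix b₀ b₀ (ρ.ρ σ) := fun σ =>
      basis_toMatrix_mul_linearMap_toMatrix_mul_basis_toMatrix b₀ b b₀ b (ρ.ρ σ)
    have hL : ∀ v ∈ (Submodule.span A {b₀ 0}), b₀.repr v 1 = 0 := by
      intro v hv
      obtain ⟨a, rfl⟩ := Submodule.mem_span_singleton.mp hv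
      simp
    refine ⟨b.toMatrix b₀, b₀.toMatrix b, b.toMatrix_mul_toMatrix_flip b₀,
      b₀.toMatrix_mul_toMatrix_flip b, ?_, ?_, ?_⟩
    · intro σ hσ
      rw [key, LinearMap.toMatrix_apply]
      exact hL _ (hD σ hσ _ (Submodule.mem_span_singleton_self _))
    · intro σ hσ
      rw [key, LinearMap.toMatrix_apply]
      have := hL _ (hI σ hσ (b₀ 1))
      rw [map_sub, Finsupp.sub_apply, b₀.repr_self, Finsupp.single_eq_same] at this
      exact sub_eq_zero.mp this
    · intro σ hσ n a ha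
      obtain ⟨x, z, h1, h2, h3⟩ := hx σ hσ
      rw [key, LinearMap.toMatrix_apply, LinearMap.toMatrix_apply]
      have e1 : b₀.repr (ρ.ρ σ (b₀ 0)) 0 = x := by
        rw [h1 _ (Submodule.mem_span_singleton_self _)]
        simp
      have e2 : b₀.repr (ρ.ρ σ (b₀ 1)) 1 = z := by
        have := hL _ (h2 (b₀ 1))
        rw [map_sub, Finsupp.sub_apply, map_smul, b₀.repr_self, Finsupp.smul_apply,
          Finsupp.single_eq_same, smul_eq_mul, mul_one] at this
        exact sub_eq_zero.mp this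
      rw [e1, e2]
      exact h3 n a ha
  · rintro ⟨B, B', hB, hB', hD, hI, hx⟩
    let e : ρ.V ≃ₗ[A] ρ.V := LinearEquiv.ofLinearMap (Matrix.toLin b b B) (Matrix.toLin b b B')
      (by rw [← Matrix.toLin_mul b b b, hB, Matrix.toLin_one])
      (by rw [← Matrix.toLin_mul b b b, hB', Matrix.toLin_one])
    let b₀ := b.map e
    have hb : b.toMatrix b₀ = B := by
      ext i j
      rw [Module.Basis.toMatrix_apply]
      change b.repr (Matrix.toLin b b B (b j)) i = _
      have h1 := congrFun (congrFun (LinearMap.toMatrix_toLin b b B) i) j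
      rw [LinearMap.toMatrix_apply] at h1
      exact h1
    have hb' : b₀.toMatrix b = B' := by
      have h1 : b₀.toMatrix b * B = 1 := by rw [← hb]; exact b₀.toMatrix_mul_toMatrix_flip b
      calc b₀.toMatrix b = b₀.toMatrix b * (B * B') := by rw [hB, mul_one]
        _ = B' := by rw [← mul_assoc, h1, one_mul]
    have key : ∀ σ, B' * repMat ρ b σ * B = LinearMap.toMatrix b₀ b₀ (ρ.ρ σ) := fun σ => by
      rw [← hb, ← hb']
      exact basis_toMatrix_mul_linearMap_toMatrix_mul_basis_toMatrix b₀ b b₀ b (ρ.ρ σ)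
    have hL : ∀ v : ρ.V, b₀.repr v 1 = 0 → v ∈ (Submodule.span A {b₀ 0}) := by
      intro v hv
      rw [← b₀.sum_repr v, Fin.sum_univ_two, hv, zero_smul, add_zero]
      exact Submodule.smul_mem _ _ (Submodule.mem_span_singleton_self _)
    have hent : ∀ σ, ∀ j, ρ.ρ σ (b₀ j) = (B' * repMat ρ b σ * B) 0 j • b₀ 0 +
        (B' * repMat ρ b σ * B) 1 j • b₀ 1 := by
      intro σ j
      rw [key, LinearMap.toMatrix_apply, LinearMap.toMatrix_apply, ← Fin.sum_univ_two
        (fun i => b₀.repr (ρ.ρ σ (b₀ j)) i • b₀ i)]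
      exact (b₀.sum_repr _).symm
    refine ⟨Submodule.span A {b₀ 0}, ⟨b₀, rfl⟩, ?_, ?_, ?_⟩
    · intro σ hσ v hv
      obtain ⟨a, rfl⟩ := Submodule.mem_span_singleton.mp hv
      rw [map_smul, hent, hD σ hσ, zero_smul, add_zero]
      exact Submodule.smul_mem _ _ (Submodule.smul_mem _ _ (Submodule.mem_span_singleton_self _))
    · intro σ hσ v
      have hσD : σ ∈ P.decompositionSubgroup ℚ := by
        obtain ⟨τ, -, rfl⟩ := hσ
        exact τ.2
      apply hL
      have h1 : v = b₀.repr v 0 • b₀ 0 + b₀.repr v 1 • b₀ 1 := by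
        conv_lhs => rw [← b₀.sum_repr v, Fin.sum_univ_two]
      have h2 : ρ.ρ σ v = b₀.repr v 0 • ρ.ρ σ (b₀ 0) + b₀.repr v 1 • ρ.ρ σ (b₀ 1) := by
        conv_lhs => rw [h1, map_add, map_smul, map_smul]
      rw [map_sub, Finsupp.sub_apply, h2, hent σ 0, hent σ 1, hD σ hσD, hI σ hσ]
      simp
    · intro σ hσ
      refine ⟨(B' * repMat ρ b σ * B) 0 0, (B' * repMat ρ b σ * B) 1 1, ?_, ?_, ?_⟩
      · intro w hw
        obtain ⟨a, rfl⟩ := Submodule.mem_span_singleton.mp hw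
        rw [map_smul, hent, hD σ hσ, zero_smul, add_zero, smul_comm]
      · intro v
        apply hL
        have h1 : v = b₀.repr v 0 • b₀ 0 + b₀.repr v 1 • b₀ 1 := by
          conv_lhs => rw [← b₀.sum_repr v, Fin.sum_univ_two]
        have h2 : ρ.ρ σ v = b₀.repr v 0 • ρ.ρ σ (b₀ 0) + b₀.repr v 1 • ρ.ρ σ (b₀ 1) := by
          conv_lhs => rw [h1, map_add, map_smul, map_smul]
        rw [map_sub, Finsupp.sub_apply, h2, hent σ 0, hent σ 1, hD σ hσ]
        simp [mul_comm]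
      · intro n a ha
        exact hx σ hσ n a ha

end Basic

end Fermat.Agent.TW56
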