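import Fermat.Agent.TW56.Ord

/-!
# The Taylor–Wiles primes statement from the Selmer bound
-/

set_option autoImplicit false
set_option maxHeartbeats 400000
set_option linter.unusedSectionVars false

noncomputable section

namespace Fermat.Agent.TW56

open IsLocalRing Matrix Fermat.Agent.DefRing Fermat.Agent.GalRep Fermat.Agent.TWGal
  Fermat.Agent.TWPatch GaloisRep Fermat.Agent.FlatLoc

local notation "Qbar" => AlgebraicClosure ℚ

section Sel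

variable {k : Type} [Field k]

/-- Selmer conditions with a general condition at `p` -/
structure SelG (p : ℕ) (Smin Q : Finset ℕ) {A : ValuationSubring Qbar}
    (Lp : Submodule k (DD A → Matrix (Fin 2) (Fin 2) k))
    (ρb : GQ →* Matrix (Fin 2) (Fin 2) k) (c : GQ → Matrix (Fin 2) (Fin 2) k) : Prop where
  coc : IsCock ρb c
  tr : ∀ σ, (c σ).trace = 0
  lev : FinLev c 0
  unr : ∀ q : ℕ, q.Prime → q ∉ Smin → q ∉ Q → ∀ A' : ValuationSubring Qbar, A'.LiesOverPrime q →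
    ∀ σ ∈ A'.inertiaSubgroupIn ℚ, c σ = 0
  uni : ∀ q ∈ Smin, q.Prime → q ≠ p → ∀ A' : ValuationSubring Qbar, A'.LiesOverPrime q →
    ∀ σ ∈ A'.inertiaSubgroupIn ℚ, (c σ * ρb σ).trace = 0
  loc : (fun σ : DD A => c (σ : GQ)) ∈ Lp

/-- the Selmer bound -/
def SelC (p : ℕ) (Smin S : Finset ℕ) {A : ValuationSubring Qbar}
    (Lp : Submodule k (DD A → Matrix (Fin 2) (Fin 2) k))
    (ρb : GQ →* Matrix (Fin 2) (Fin 2) k) : Prop :=
  ∃ r : ℕ, ∀ n : ℕ, ∃ Q : Finset ℕ, Q.card = r ∧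
    (∀ q ∈ Q, q.Prime ∧ q ∉ S ∧ p ^ n ∣ q - 1 ∧
      ∃ α β : k, α ≠ β ∧ α * β = 1 ∧ ∀ A : ValuationSubring Qbar, A.LiesOverPrime q →
        ∀ τ : GQ, A.IsFrobeniusAt τ q → (ρb τ).trace = α + β) ∧
    ∃ Z : Submodule k (GQ → Matrix (Fin 2) (Fin 2) k), FiniteDimensional k Z ∧
      Module.finrank k Z ≤ r + 3 ∧ (∀ c, SelG p Smin Q Lp ρb c → c ∈ Z) ∧
      ∀ X : Matrix (Fin 2) (Fin 2) k, X.trace = 0 →
        (fun g => X - ρb g * X * ρb g⁻¹) ∈ Z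

end Sel

variable {𝒪 : Type} [CommRing 𝒪] [IsDomain 𝒪] [IsDiscreteValuationRing 𝒪]
  [IsAdicComplete (maximalIdeal 𝒪) 𝒪] [Finite (ResidueField 𝒪)] {p : ℕ} [hp : Fact p.Prime]
  {ρbar : ResidualGaloisRep (ResidueField 𝒪)}

/-- the type of the deformation problems -/
abbrev PCond (𝒪 : Type) [CommRing 𝒪] : Type 1 :=
  ∀ ⦃A : Type⦄ [CommRing A] [IsLocalRing A] [Algebra 𝒪 A], GaloisRepAdic A → Prop

/-- deformation problems with a condition `C` at `p` -/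
abbrev DCond (𝒪 : Type) [CommRing 𝒪] (p : ℕ) (Smin S' : Finset ℕ) (C : PCond 𝒪) : PCond 𝒪 :=
  fun _A _ _ _ ρ => (ρ.DetIsCyclotomic p ∧ C ρ ∧
    ∀ q : ℕ, q.Prime → q ∉ S' → ρ.IsUnramifiedAt q) ∧
    ∀ q ∈ Smin, q.Prime → q ≠ p → ρ.IsUnipotentOnInertiaAt q

/-- **the main step** -/
theorem surj_of_sel (C : PCond 𝒪) (hp2 : p ≠ 2) (hp𝒪 : (p : 𝒪) ∈ maximalIdeal 𝒪)
    (b : Module.Basis (Fin 2) (ResidueField 𝒪) ρbar.V)
    (hspan : Submodule.span (ResidueField 𝒪) (Set.range (resMatHom ρbar b)) = ⊤)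
    {Smin : Finset ℕ} {Q : Finset ℕ} {A₀ : ValuationSubring Qbar}
    (Lp : Submodule (ResidueField 𝒪) (DD A₀ → Matrix (Fin 2) (Fin 2) (ResidueField 𝒪)))
    (hpushC : ∀ (R : Type) [CommRing R] [IsLocalRing R] [Algebra 𝒪 R] (ρ : GaloisRepAdic R)
      (T : GQ →* Matrix (Fin 2) (Fin 2) R) (hT : MatCont T), ρ.IsEquiv (matRep T hT) → C ρ →
      ∀ κ : R →ₐ[𝒪] ResidueField 𝒪,
        C (matRep (mapT (triv κ : R →+* Dk 𝒪) T) (hT.map _ (isLocalHom_of_dk κ _))))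
    (hloc : ∀ (R : Type) [CommRing R] [IsLocalRing R] [Algebra 𝒪 R] (ρ : GaloisRepAdic R)
      (T : GQ →* Matrix (Fin 2) (Fin 2) R) (hT : MatCont T), ρ.IsEquiv (matRep T hT) → C ρ →
      MDet p T → ∀ κ : R →ₐ[𝒪] ResidueField 𝒪, (∀ g, (T g).map κ = resMatHom ρbar b g) →
      ∀ ℓ ∈ Der κ (∅ : Set R), (fun σ : DD A₀ => coc T (resMatHom ρbar b) ℓ (σ : GQ)) ∈ Lp)
    {r : ℕ} (Z : Submodule (ResidueField 𝒪) (GQ → Matrix (Fin 2) (Fin 2) (ResidueField 𝒪)))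
    [FiniteDimensional (ResidueField 𝒪) Z]
    (hZ : Module.finrank (ResidueField 𝒪) Z ≤ r + 3)
    (hsel : ∀ c, SelG p Smin Q Lp (resMatHom ρbar b) c → c ∈ Z)
    (hcob : ∀ X : Matrix (Fin 2) (Fin 2) (ResidueField 𝒪), X.trace = 0 →
      (fun g => X - resMatHom ρbar b g * X * resMatHom ρbar b g⁻¹) ∈ Z)
    (D : DeformationRingData 𝒪 ρbar (DCond 𝒪 p Smin (Smin ∪ Q) C)) :
    ∃ γ : MvPowerSeries (Fin r) 𝒪 →ₐ[𝒪] D.R, Function.Surjective γ := by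
  have hpk : (p : ResidueField 𝒪) = 0 := by
    rw [← map_natCast (residue 𝒪), residue_eq_zero_iff]; exact hp𝒪
  have h2 : (2 : ResidueField 𝒪) ≠ 0 := by
    intro h2
    have h3 : CharP (ResidueField 𝒪) p := (CharP.charP_iff_prime_eq_zero hp.out).mpr hpk
    have h4 : p ∣ 2 := (CharP.cast_eq_zero_iff (ResidueField 𝒪) p 2).mp (by exact_mod_cast h2)
    exact hp2 ((Nat.prime_dvd_prime_iff_eq hp.out Nat.prime_two).mp h4)
  obtain ⟨⟨hd1, hd2, hd3⟩, hd4⟩ := D.isOfType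
  have hcond : ∀ (T : GQ →* Matrix (Fin 2) (Fin 2) D.R) (hT : MatCont T),
      D.ρ.IsEquiv (matRep T hT) → MDet p T ∧
      (∀ q : ℕ, q.Prime → q ∉ Smin ∪ Q → ∀ P : ValuationSubring Qbar, P.LiesOverPrime q →
        ∀ σ ∈ P.inertiaSubgroupIn ℚ, T σ = 1) ∧
      (∀ q ∈ Smin, q.Prime → q ≠ p → ∀ P : ValuationSubring Qbar, P.LiesOverPrime q →
        ∀ σ ∈ P.inertiaSubgroupIn ℚ, (T σ).trace = 2 ∧ (T σ).det = 1) := by
    intro T hT he
    obtain ⟨b', rfl⟩ := exists_basis_of_equiv he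
    exact ⟨((detCyc_iff _ b').mp hd1).2, fun q hq hqS => (unr_iff _ b').mp (hd3 q hq hqS),
      fun q hq hq' hqp => (uni_iff _ b').mp (hd4 q hq hq' hqp)⟩
  refine exists_surj D b h2 hspan ?_ Z hZ hcob ?_
  · intro κ T hT he
    obtain ⟨h3, h4, h5⟩ := hcond T hT he
    obtain ⟨b', hb'⟩ := exists_basis_matRep (mapT (triv κ : D.R →+* Dk 𝒪) T)
      (hT.map _ (isLocalHom_of_dk κ _))
    refine ⟨⟨(detCyc_iff _ b').mpr ⟨?_, ?_⟩, hpushC D.R D.ρ T hT he hd2 κ, ?_⟩, ?_⟩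
    · rw [← map_natCast (algebraMap 𝒪 (Dk 𝒪)), dk_mem_maximalIdeal_iff]
      exact (residue_eq_zero_iff _).mpr hp𝒪
    · rw [hb']
      exact h3.map _
    · intro q hq hqS
      refine (unr_iff _ b').mpr fun P hP σ hσ => ?_
      rw [hb']
      have h6 := h4 q hq hqS P hP σ hσ
      change (T σ).map (triv κ : D.R →+* Dk 𝒪) = 1
      rw [h6, Matrix.map_one _ (map_zero _) (map_one _)]
    · intro q hq hq' hqp
      refine (uni_iff _ b').mpr fun P hP σ hσ => ?_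
      rw [hb', trace_mapT, det_mapT, (h5 q hq hq' hqp P hP σ hσ).1,
        (h5 q hq hq' hqp P hP σ hσ).2, map_one, map_ofNat]
      exact ⟨rfl, rfl⟩
  · intro κ T hT he hρ ℓ hℓ
    obtain ⟨h3, h4, h5⟩ := hcond T hT he
    refine hsel _ ⟨TWInst.isCock_coc hρ hℓ, trace_zero hρ hℓ hpk h3, finLev_coc hρ hℓ hT, ?_, ?_,
      hloc D.R D.ρ T hT he hd2 h3 κ hρ ℓ hℓ⟩
    · intro q hq h6 h7 P hP σ hσ
      refine TWInst.coc_of_one hρ hℓ (h4 q hq ?_ P hP σ hσ)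
      rw [Finset.mem_union]
      exact fun h => h.elim h6 h7
    · intro q hq hq' hqp P hP σ hσ
      exact trace_uni hρ hℓ (h5 q hq hq' hqp P hP σ hσ).1

/-- **one half of the statement, from the Selmer bound** -/
theorem half_of_sel (C : PCond 𝒪) (hp2 : p ≠ 2) (hp𝒪 : (p : 𝒪) ∈ maximalIdeal 𝒪)
    (b : Module.Basis (Fin 2) (ResidueField 𝒪) ρbar.V)
    (hspan : Submodule.span (ResidueField 𝒪) (Set.range (resMatHom ρbar b)) = ⊤)
    (hdet : ∀ g, (resMatHom ρbar b g).det = ((cyc p g : ZMod p).val : ResidueField 𝒪))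
    (Smin S : Finset ℕ) {A₀ : ValuationSubring Qbar}
    (Lp : Submodule (ResidueField 𝒪) (DD A₀ → Matrix (Fin 2) (Fin 2) (ResidueField 𝒪)))
    (hpushC : ∀ (R : Type) [CommRing R] [IsLocalRing R] [Algebra 𝒪 R] (ρ : GaloisRepAdic R)
      (T : GQ →* Matrix (Fin 2) (Fin 2) R) (hT : MatCont T), ρ.IsEquiv (matRep T hT) → C ρ →
      ∀ κ : R →ₐ[𝒪] ResidueField 𝒪,
        C (matRep (mapT (triv κ : R →+* Dk 𝒪) T) (hT.map _ (isLocalHom_of_dk κ _))))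
    (hloc : ∀ (R : Type) [CommRing R] [IsLocalRing R] [Algebra 𝒪 R] (ρ : GaloisRepAdic R)
      (T : GQ →* Matrix (Fin 2) (Fin 2) R) (hT : MatCont T), ρ.IsEquiv (matRep T hT) → C ρ →
      MDet p T → ∀ κ : R →ₐ[𝒪] ResidueField 𝒪, (∀ g, (T g).map κ = resMatHom ρbar b g) →
      ∀ ℓ ∈ Der κ (∅ : Set R), (fun σ : DD A₀ => coc T (resMatHom ρbar b) ℓ (σ : GQ)) ∈ Lp)
    (hsel : SelC p Smin S Lp (resMatHom ρbar b)) :
    ∃ r : ℕ, ∀ n : ℕ, ∃ qv : Fin r → ℕ, Function.Injective qv ∧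
      (∀ i, (qv i).Prime ∧ qv i ∉ S ∧ p ^ (n + 1) ∣ qv i - 1) ∧
      (∀ i, ∀ P : ValuationSubring (AlgebraicClosure ℚ), P.LiesOverPrime (qv i) →
        ∀ φ : AlgebraicClosure ℚ ≃ₐ[ℚ] AlgebraicClosure ℚ, P.IsFrobeniusAt φ (qv i) →
          ∃ α β : ResidueField 𝒪, α ≠ β ∧ LinearMap.charpoly (ρbar.ρ φ) =
            (Polynomial.X - Polynomial.C α) * (Polynomial.X - Polynomial.C β)) ∧
      ∀ DQ : DeformationRingData 𝒪 ρbar (DCond 𝒪 p Smin (Smin ∪ Finset.univ.image qv) C),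
        ∃ γ : MvPowerSeries (Fin r) 𝒪 →ₐ[𝒪] DQ.R, Function.Surjective γ := by
  classical
  obtain ⟨r, hr⟩ := hsel
  refine ⟨r, fun n => ?_⟩
  obtain ⟨Q, hQr, hQ, Z, hZf, hZ, hZs, hZc⟩ := hr (n + 1)
  let e : Fin r ≃ Q := (Q.equivFinOfCardEq hQr).symm
  have himg : Finset.univ.image (fun i => (e i : ℕ)) = Q := by
    ext q
    rw [Finset.mem_image]
    constructor
    · rintro ⟨i, -, rfl⟩
      exact (e i).2
    · intro hq
      exact ⟨e.symm ⟨q, hq⟩, Finset.mem_univ _, by rw [Equiv.apply_symm_apply]⟩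
  refine ⟨fun i => (e i : ℕ), fun i j hij => e.injective (Subtype.ext hij), fun i => ?_,
    fun i P hP φ hφ => ?_, ?_⟩
  · obtain ⟨h1, h2, h3, -⟩ := hQ (e i) (e i).2
    exact ⟨h1, h2, h3⟩
  · obtain ⟨h1, h2, h3, α, β, hne, hαβ, htr⟩ := hQ (e i) (e i).2
    refine ⟨α, β, hne, ?_⟩
    have h4 := htr P hP φ hφ
    have hpq : (p : ℕ) ∣ (e i : ℕ) - 1 := (dvd_pow_self p (Nat.succ_ne_zero n)).trans h3
    have h5 : (resMatHom ρbar b φ).det = 1 := by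
      rw [hdet]
      have h1' : (e i : ℕ).Prime := h1
      have hpq' : ¬ (e i : ℕ) ∣ p := by
        intro h
        have h7 := (Nat.prime_dvd_prime_iff_eq h1' hp.out).mp h
        rw [h7] at hpq
        have h8 := Nat.le_of_dvd (Nat.sub_pos_of_lt hp.out.one_lt) hpq
        have := hp.out.one_lt
        omega
      have h6 : (cyc p φ : ZMod p) = ((e i : ℕ) : ZMod p) :=
        cyc_eq fun μ hμ => frob_rootOfUnity h1' hP hφ hpq' hμ
      have h7 : ((e i : ℕ) : ZMod p) = 1 := by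
        have h8 : ((e i : ℕ) : ZMod p) = (((e i : ℕ) - 1 + 1 : ℕ) : ZMod p) := by
          rw [Nat.sub_add_cancel h1'.one_le]
        rw [h8, Nat.cast_add, (ZMod.natCast_eq_zero_iff _ _).mpr hpq, zero_add, Nat.cast_one]
      haveI : Fact (1 < p) := ⟨hp.out.one_lt⟩
      rw [h6, h7, ZMod.val_one, Nat.cast_one]
    rw [← LinearMap.charpoly_toMatrix (ρbar.ρ φ) b, Matrix.charpoly_fin_two]
    have e1 : (LinearMap.toMatrix b b (ρbar.ρ φ)).trace = α + β := h4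
    have e2 : (LinearMap.toMatrix b b (ρbar.ρ φ)).det = 1 := h5
    rw [e1, e2, ← hαβ, map_add, map_mul]
    ring
  · have h9 : ∀ Q' : Finset ℕ, Q' = Q → ∀ DQ : DeformationRingData 𝒪 ρbar
        (DCond 𝒪 p Smin (Smin ∪ Q') C),
        ∃ γ : MvPowerSeries (Fin r) 𝒪 →ₐ[𝒪] DQ.R, Function.Surjective γ := by
      rintro Q' rfl DQ
      exact surj_of_sel C hp2 hp𝒪 b hspan Lp hpushC hloc Z hZ hZs hZc DQ
    exact h9 _ himg

end Fermat.Agent.TW56
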